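/-
Programme FFJ (S19 then S32).  COMPILED SPEC of the chapter interfaces.  Owner: helper35 (FFJ lead).
Pinned plan: report #1229 (FFJ-PLAN v1).

Everything is in universe `0` (`ℚ̄ = AlgebraicClosure ℚ : Type`).  Base ring `O` (in the application a
discrete valuation ring `AK A K = A ∩ K` of a number field `K ⊂ ℚ̄`), two-chart curve data
`(A0 → A01 ← A1; t, s; e)` over `O` as in Programme JAC, class functor `ClR O A0 A1 A01 t s B` of
`FFJ/Core/ClR35`.

* `CurveHypR`            : (v0) what chapter CURVE delivers about the curve data;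
* `ChartPkg`             : ONE chart of the functor `B ↦ PicZeroR e B` (= one chart of JAC's `AlgAtlas36`,
                           over the base ring `O`): what chapter PIC delivers;
* `galActR`, `galMulAction` : the Galois action on the `Ω`-points;
* `ValInj`, `ValSurj`    : the valuative property (chapter VAL);
* `Admissible`           : the chart contains a set `T` of `Ω`-points and all its specialisations;
* `OrderStatement`       : the formal theorem of chapter ORDER (`ChartPkg` + VAL + `Admissible` give a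
                           function order over `O`).
-/
import Mathlib
import Fermat.Agent.FFJ.Core.ClRBc35
import Fermat.Agent.TW.FF.FunOrder68

set_option autoImplicit false

noncomputable section

namespace Fermat.Agent.FFJ.Spec.Spec35

open scoped TensorProduct
open Fermat.Agent.JAC.Core.Defs36 Fermat.Agent.JAC.Grp.Diag33 Fermat.Agent.FFJ.Core.ClR35
  Fermat.Agent.FFJ.Core.ClRBc35 Fermat.Agent.TW.FF.FunOrder68

variable (O : Type) [CommRing O] (A0 A1 A01 : Type) [CommRing A0] [CommRing A1] [CommRing A01]
  [Algebra O A0] [Algebra O A1] [Algebra O A01] [Algebra A0 A01] [Algebra A1 A01]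
  [IsScalarTower O A0 A01] [IsScalarTower O A1 A01] (t : A0) (s : A1)
  [IsLocalization.Away t A01] [IsLocalization.Away s A01]

/-! ### Chapter CURVE: hypotheses on the curve data (v0; PIC may ask for amendments) -/

/-- **(v0)** A smooth proper two-chart curve with geometrically integral fibres over the base ring `O`,
in algebra form. -/
structure CurveHypR : Prop where
  /-- `t s = 1` on the overlap -/
  ts : algebraMap A0 A01 t * algebraMap A1 A01 s = 1
  /-- `A0` is finite free over `O[t]`, coordinate form (the shape consumed by `JAC/Frame`) -/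
  free0 : ∃ (n : ℕ) (a : Fin n → A0),
    Function.Bijective (fun p : Fin n → Polynomial O => ∑ j, Polynomial.aeval t (p j) * a j)
  /-- `A1` is finite free over `O[s]` -/
  free1 : ∃ (n : ℕ) (a : Fin n → A1),
    Function.Bijective (fun p : Fin n → Polynomial O => ∑ j, Polynomial.aeval s (p j) * a j)
  /-- all fibres of the charts are Dedekind domains (smooth, geometrically integral) -/
  dedekind0 : ∀ (K : Type) [Field K] [Algebra O K], IsDedekindDomain (K ⊗[O] A0)
  dedekind1 : ∀ (K : Type) [Field K] [Algebra O K], IsDedekindDomain (K ⊗[O] A1)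
  dedekind01 : ∀ (K : Type) [Field K] [Algebra O K], IsDedekindDomain (K ⊗[O] A01)
  /-- `H⁰(X, 𝒪) = O` -/
  h0 : ∀ (x : A0) (y : A1), algebraMap A0 A01 x = algebraMap A1 A01 y →
    ∃ c : O, algebraMap O A0 c = x ∧ algebraMap O A1 c = y

variable (e : A01 →ₐ[O] O)

/-! ### Chapter PIC: one chart -/

/-- **One chart** of the functor `B ↦ PicZeroR e B` on `O`-algebras: an `O`-algebra `RW` of finite type
with a universal class, a pointwise predicate `W` on field-valued points, and the two representability
statements `inj`, `mem_iff` (verbatim the fields of `JAC/Core/AlgAtlas36.AlgAtlas` for a single chart,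
over the base ring `O`). -/
structure ChartPkg where
  /-- the chart ring -/
  RW : Type
  [commRing : CommRing RW]
  [algebra : Algebra O RW]
  finiteType : Algebra.FiniteType O RW
  /-- the universal class -/
  x : ClR O A0 A1 A01 t s RW
  x_mem : x ∈ PicZeroR e RW
  /-- the pointwise predicate on field-valued points -/
  W : ∀ (K : Type) [Field K] [Algebra O K], ClR O A0 A1 A01 t s K → Prop
  W_iff : ∀ (K L : Type) [Field K] [Field L] [Algebra O K] [Algebra O L] (ψ : K →ₐ[O] L)
    (ξ : ClR O A0 A1 A01 t s K), ξ ∈ PicZeroR e K → (W L (bcR ψ ξ) ↔ W K ξ)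
  inj : ∀ (B : Type) [CommRing B] [Algebra O B] (φ ψ : RW →ₐ[O] B), bcR φ x = bcR ψ x → φ = ψ
  mem_iff : ∀ (B : Type) [CommRing B] [Algebra O B] (ξ : ClR O A0 A1 A01 t s B),
    ξ ∈ PicZeroR e B →
    ((∃ ψ : RW →ₐ[O] B, bcR ψ x = ξ) ↔
      ∀ p : PrimeSpectrum B, W p.asIdeal.ResidueField (bcR (toResidueR B p) ξ))

attribute [instance] ChartPkg.commRing ChartPkg.algebra

/-! ### The Galois action on the `Ω`-points -/

section Galois

variable (F Ω : Type) [Field F] [Field Ω] [Algebra O F] [Algebra F Ω] [Algebra O Ω]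
  [IsScalarTower O F Ω]

variable {Ω} in
/-- `σ ∈ Aut(Ω/F)` as an `O`-algebra endomorphism of `Ω`. -/
def galHom (σ : Ω ≃ₐ[F] Ω) : Ω →ₐ[O] Ω := (σ : Ω →ₐ[F] Ω).restrictScalars O

variable {A0 A1 A01 t s Ω} in
/-- The action of `σ ∈ Aut(Ω/F)` on classes over `Ω`. -/
def galActR (σ : Ω ≃ₐ[F] Ω) : ClR O A0 A1 A01 t s Ω →* ClR O A0 A1 A01 t s Ω :=
  bcR (galHom O F σ)

variable {A0 A1 A01 t s Ω} in
theorem galActR_one (ξ : ClR O A0 A1 A01 t s Ω) : galActR O F (1 : Ω ≃ₐ[F] Ω) ξ = ξ := by
  have : galHom O F (1 : Ω ≃ₐ[F] Ω) = AlgHom.id O Ω := AlgHom.ext fun _ => rfl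
  rw [galActR, this, bcR_id_apply]

variable {A0 A1 A01 t s Ω} in
theorem galActR_mul (σ τ : Ω ≃ₐ[F] Ω) (ξ : ClR O A0 A1 A01 t s Ω) :
    galActR O F (σ * τ) ξ = galActR O F σ (galActR O F τ ξ) := by
  have : galHom O F (σ * τ) = (galHom O F σ).comp (galHom O F τ) := AlgHom.ext fun _ => rfl
  rw [galActR, galActR, galActR, this, bcR_bc]

/-- The action of `Aut(Ω/F)` on the group of classes over `Ω` (a def, not an instance). -/
@[reducible] def galMulAction : MulAction (Ω ≃ₐ[F] Ω) (ClR O A0 A1 A01 t s Ω) where
  smul σ ξ := galActR O F σ ξ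
  one_smul ξ := galActR_one O F ξ
  mul_smul σ τ ξ := galActR_mul O F σ τ ξ

end Galois

/-! ### Chapter VAL: the valuative property -/

section Val

variable (Ω : Type) [Field Ω] [Algebra O Ω]

/-- **(VAL, uniqueness)** a rigid degree-zero class over a valuation subring `V` of `Ω` is determined by
its generic fibre. -/
def ValInj : Prop :=
  ∀ (V : ValuationSubring Ω) [Algebra O V] [IsScalarTower O V Ω]
    (ξ ξ' : ClR O A0 A1 A01 t s V), ξ ∈ PicZeroR e V → ξ' ∈ PicZeroR e V →
    bcR (IsScalarTower.toAlgHom O V Ω) ξ = bcR (IsScalarTower.toAlgHom O V Ω) ξ' → ξ = ξ'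

/-- **(VAL, existence)** every rigid degree-zero class over `Ω` extends over every valuation subring. -/
def ValSurj : Prop :=
  ∀ (V : ValuationSubring Ω) [Algebra O V] [IsScalarTower O V Ω]
    (η : ClR O A0 A1 A01 t s Ω), η ∈ PicZeroR e Ω →
    ∃ ξ : ClR O A0 A1 A01 t s V, ξ ∈ PicZeroR e V ∧ bcR (IsScalarTower.toAlgHom O V Ω) ξ = η

variable {O A0 A1 A01 t s e} in
/-- **The chart contains `T` and all its specialisations.** -/
def Admissible (𝒞 : ChartPkg O A0 A1 A01 t s e) (T : Set (ClR O A0 A1 A01 t s Ω)) : Prop :=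
  (∀ ξ ∈ T, 𝒞.W Ω ξ) ∧
    ∀ (V : ValuationSubring Ω) [Algebra O V] [IsScalarTower O V Ω]
      (ξ : ClR O A0 A1 A01 t s V), ξ ∈ PicZeroR e V →
      bcR (IsScalarTower.toAlgHom O V Ω) ξ ∈ T →
      𝒞.W (IsLocalRing.ResidueField V)
        (bcR (IsScalarTower.toAlgHom O V (IsLocalRing.ResidueField V)) ξ)

end Val

/-! ### Chapter ORDER: the formal theorem -/

section Order

variable (F Ω : Type) [Field F] [Field Ω] [Algebra O F] [Algebra F Ω] [Algebra O Ω]
  [IsScalarTower O F Ω]

/-- **(ORDER)** Let `M` be a finite abelian group with an action of `Aut(Ω/F)` and an equivariant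
embedding `ι` into the rigid degree-zero classes over `Ω` (the classes form a large type, so the group
is carried by the small type `M`; in the application `M = torsionBy ℤ (JZero N) (ℓ ^ k)` and `ι` is the
BRIDGE).  A chart containing `ι(M)` and all its specialisations gives a function order on `M` over `O`:
the image of the chart ring in `Fun(M, Ω)` under the coordinates of the points of `M`.
(To be proved for `O` a discrete valuation ring with fraction field `F`, `Ω` an algebraic closure of
`F`; add those hypotheses as needed, `IsFunOrder` does not mention them.) -/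
def OrderStatement : Prop :=
  ∀ (𝒞 : ChartPkg O A0 A1 A01 t s e) (M : Type) [AddCommGroup M] [Finite M]
    [MulAction (Ω ≃ₐ[F] Ω) M]
    (ι : Multiplicative M →* ClR O A0 A1 A01 t s Ω) (_ : Function.Injective ι)
    (_ : ∀ m, ι m ∈ PicZeroR e Ω)
    (_ : ∀ (σ : Ω ≃ₐ[F] Ω) (m : M),
      ι (Multiplicative.ofAdd (σ • m)) = galActR O F σ (ι (Multiplicative.ofAdd m))),
    ValInj O A0 A1 A01 t s e Ω → ValSurj O A0 A1 A01 t s e Ω → Admissible Ω 𝒞 (Set.range ι) →
    ∃ H : Subalgebra O (M → Ω), IsFunOrder O F H

end Order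

end Fermat.Agent.FFJ.Spec.Spec35
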