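/-
Programme FFJ (S19 then S32).  **STATUS FILE** (helper72, integrator; board decision 6).

Machine-checked end-to-end statement of the programme: the contracts which are still OPEN are the
fields of `OpenContracts`; `s19_of_openContracts` has literally the conclusion of the frozen S19 and
`s32_of_openContracts` literally the conclusion of the frozen S32.  Closed chapters are plugged in:

* LEVEL (helper72, `FFJ/Level/Level72`): S19 follows from S19 at the levels divisible by `4` or `9`;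
* ALG   (helper78 with helper92, helper3; `FFJ/Alg/MainNN78.algStatementNN`): a function order at ONE
  place `A ∩ K` of ONE number field `K` (finite over `ℚ`, NOT necessarily normal), unramified at that
  place, gives the `ℤ_(ℓ)`-model;
* ORDER (helper77, helper75; `FFJ/Order/Order77.exists_isFunOrder`): a chart of `PicZeroR` containing
  the points of `M` and their specialisations gives a function order.

OPEN:

* `geo`  : `GeoStatement` (chapters CURVE helper17 + helper23 + helper39 + helper64 + helper9,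
           PIC/PIC-D helper35 and team, FIB helper6, VAL helper1 + helper67, BRIDGE helper85 +
           helper96): `SpecNN78.GeoInputNN` for `J₀(M)[ℓ^k]` at every level `M` divisible by
           `4` or `9`, `ℓ ∤ M`; it follows from a `GeoPackage` (number field, place, curve data over
           `O = A ∩ K`, chart, equivariant embedding `ι`, `ValSurj`, `Admissible`:
           `geoStatement_of_geoPackage`), from `SpecLocal78.GeoInputLocal`
           (`geoStatement_of_geoInputLocal`) or from `Spec78.GeoInput` (`geoStatement_of_geoInput`);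
* `S32Glue` (helper81 with helper97 and helper68), a separate hypothesis of `s32_of_openContracts`:
           the literal S19 conclusion at level `N` for all `k` gives `ρ.IsFlatAt p` for an UNBUNDLED
           Hecke system (report 1132).
-/
import Mathlib
import Fermat.Prelude.Def_CuspForm_HeckeGaloisRepDatum
import Fermat.Prelude.Def_GaloisRep_Flat
import Fermat.Agent.FFJ.Level.Level72
import Fermat.Agent.FFJ.Alg.MainNN78
import Fermat.Agent.FFJ.Order.GeoWire77

set_option autoImplicit false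

noncomputable section

namespace Fermat.Agent.FFJ.Spec.Status72

open ModularCurve Polynomial
open Fermat.Agent.TW.FF.FlatModel68 Fermat.Agent.S19.Shell64
open Fermat.Agent.FFJ.Level.Level72 Fermat.Agent.FFJ.Alg
open Fermat.Agent.FFJ.Alg.Spec78 Fermat.Agent.FFJ.Alg.SpecLocal78 Fermat.Agent.FFJ.Alg.SpecNN78
open Fermat.Agent.FFJ.Core.ClR35 Fermat.Agent.FFJ.Core.ClRBc35 Fermat.Agent.FFJ.Spec.Spec35
open Fermat.Agent.FFJ.Order.Order77 Fermat.Agent.FFJ.Order.GeoWire77

/-! ### The Galois module `J₀(N)[n]` -/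

/-- The action of `Gal(ℚ̄/ℚ)` on `J₀(N)[n]` as a `DistribMulAction` (a def, not an instance):
`σ • x = Level72.torsAct N n σ x`. -/
@[reducible] def torsDistribMulAction (N : ℕ) (n : ℤ) :
    DistribMulAction GQ ↥(Submodule.torsionBy ℤ (JZero N) n) where
  smul σ x := torsAct N n σ x
  one_smul x := Subtype.ext (one_smul GQ (x : JZero N))
  mul_smul σ τ x := Subtype.ext (mul_smul σ τ (x : JZero N))
  smul_zero σ := Subtype.ext (smul_zero σ)
  smul_add σ x y := Subtype.ext (smul_add σ (x : JZero N) (y : JZero N))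

theorem torsDistribMulAction_smul (N : ℕ) (n : ℤ) (σ : GQ)
    (x : ↥(Submodule.torsionBy ℤ (JZero N) n)) :
    (torsDistribMulAction N n).smul σ x = torsAct N n σ x := rfl

/-! ### The open contracts -/

/-- **What GEO delivers** for a finite `G_ℚ`-module `M` at a prime `ℓ` (the hypotheses of
`GeoWire77.geoInput_of_chart`, with unramifiedness only at the place `A` and without normality): a
number field `K`, a place `A` of `ℚ̄` over `ℓ` at which `K` is unramified, two-chart curve data over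
`O = A ∩ K` with base point `e`, closure of `PicZeroR` under products, ONE chart, an injective
`Gal(ℚ̄/K)`-equivariant embedding `ι` of `M` into the rigid degree-zero classes over `ℚ̄`, the valuative
property and admissibility of the chart for `ι(M)`.  (Two-level constructions, `O₁ ⊂ O'`, are the
producer's business: the package is stated at the final level.) -/
structure GeoPackage (l : ℕ) (M : Type) [AddCommGroup M] [DistribMulAction GQ M] : Type 1 where
  finM : Finite M
  K : IntermediateField ℚ Qbar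
  finK : FiniteDimensional ℚ K
  A : ValuationSubring Qbar
  hA : A.LiesOverPrime l
  unram : UnramAtPlace A K
  A0 : Type
  A1 : Type
  A01 : Type
  [commRing0 : CommRing A0]
  [commRing1 : CommRing A1]
  [commRing01 : CommRing A01]
  [algebra0 : Algebra (OK K A) A0]
  [algebra1 : Algebra (OK K A) A1]
  [algebra01 : Algebra (OK K A) A01]
  [algebra0_01 : Algebra A0 A01]
  [algebra1_01 : Algebra A1 A01]
  [tower0 : IsScalarTower (OK K A) A0 A01]
  [tower1 : IsScalarTower (OK K A) A1 A01]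
  t : A0
  s : A1
  [away_t : IsLocalization.Away t A01]
  [away_s : IsLocalization.Away s A01]
  e : A01 →ₐ[OK K A] OK K A
  hmul : PicZeroMul (OK K A) A0 A1 A01 t s e
  chart : ChartPkg (OK K A) A0 A1 A01 t s e
  ι : Multiplicative M →* ClR (OK K A) A0 A1 A01 t s Qbar
  ι_injective : Function.Injective ι
  ι_mem : ∀ m, ι m ∈ PicZeroR e Qbar
  ι_equivariant : ∀ (σ : Qbar ≃ₐ[K] Qbar) (m : M),
    ι (Multiplicative.ofAdd ((σ.restrictScalars ℚ : GQ) • m)) =
      galActR (OK K A) K σ (ι (Multiplicative.ofAdd m))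
  valSurj : ValSurj (OK K A) A0 A1 A01 t s e Qbar
  admissible : Admissible Qbar chart (Set.range ι)

/-- **GEO ⇒ ALG**: a `GeoPackage` gives `SpecNN78.GeoInputNN`
(`Order77.exists_isFunOrder`; same proof as `GeoWire77.geoInput_of_chart`). -/
theorem geoInputNN_of_geoPackage {l : ℕ} {M : Type} [AddCommGroup M] [DistribMulAction GQ M]
    (P : GeoPackage l M) : GeoInputNN l M := by
  haveI := P.finM
  letI := P.commRing0
  letI := P.commRing1
  letI := P.commRing01
  letI := P.algebra0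
  letI := P.algebra1
  letI := P.algebra01
  letI := P.algebra0_01
  letI := P.algebra1_01
  haveI := P.tower0
  haveI := P.tower1
  haveI := P.away_t
  haveI := P.away_s
  letI : MulAction (Qbar ≃ₐ[P.K] Qbar) M := resMulAction P.K M
  obtain ⟨H, hH⟩ := exists_isFunOrder (F := P.K) (OK P.K P.A) P.A0 P.A1 P.A01 P.t P.s P.e P.hmul
    P.chart M P.ι P.ι_injective P.ι_mem P.ι_equivariant P.valSurj P.admissible
  exact ⟨P.K, P.finK, P.A, P.hA, P.unram, H, hH⟩

/-- **GEO** (chapters CURVE, PIC, FIB, VAL, BRIDGE), in the WEAKEST form which chapter ALG consumes: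
at every auxiliary level `M` (divisible by `4` or by `9`) and every prime `ℓ ∤ M`, the Galois module
`J₀(M)[ℓ^k]` has a function order at one place of one number field unramified at that place
(`SpecNN78.GeoInputNN`).  Producers: `geoStatement_of_geoPackage` (one-level package, the hypotheses
of `GeoWire77.geoInput_of_chart`), `geoStatement_of_geoInputLocal` (`SpecLocal78.GeoInputLocal`) and
`geoStatement_of_geoInput` (`Spec78.GeoInput`, normal field, global unramifiedness). -/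
def GeoStatement : Prop :=
  ∀ (M : ℕ) [NeZero M] (ℓ : ℕ) [Fact ℓ.Prime], ¬ ℓ ∣ M → (4 ∣ M ∨ 9 ∣ M) → ∀ k : ℕ,
    letI := torsDistribMulAction M ((ℓ : ℤ) ^ k)
    GeoInputNN ℓ ↥(Submodule.torsionBy ℤ (JZero M) ((ℓ : ℤ) ^ k))

/-- GEO from one `GeoPackage` per `(M, ℓ, k)`. -/
theorem geoStatement_of_geoPackage
    (h : ∀ (M : ℕ) [NeZero M] (ℓ : ℕ) [Fact ℓ.Prime], ¬ ℓ ∣ M → (4 ∣ M ∨ 9 ∣ M) → ∀ k : ℕ,
      letI := torsDistribMulAction M ((ℓ : ℤ) ^ k)
      Nonempty (GeoPackage ℓ ↥(Submodule.torsionBy ℤ (JZero M) ((ℓ : ℤ) ^ k)))) :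
    GeoStatement := by
  intro M _ ℓ _ hℓM hM k
  letI := torsDistribMulAction M ((ℓ : ℤ) ^ k)
  obtain ⟨P⟩ := h M ℓ hℓM hM k
  exact geoInputNN_of_geoPackage P

/-- GEO from `SpecLocal78.GeoInputLocal` (normal field, unramified at the place) per `(M, ℓ, k)`. -/
theorem geoStatement_of_geoInputLocal
    (h : ∀ (M : ℕ) [NeZero M] (ℓ : ℕ) [Fact ℓ.Prime], ¬ ℓ ∣ M → (4 ∣ M ∨ 9 ∣ M) → ∀ k : ℕ,
      letI := torsDistribMulAction M ((ℓ : ℤ) ^ k)
      GeoInputLocal ℓ ↥(Submodule.torsionBy ℤ (JZero M) ((ℓ : ℤ) ^ k))) :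
    GeoStatement := by
  intro M _ ℓ _ hℓM hM k
  letI := torsDistribMulAction M ((ℓ : ℤ) ^ k)
  exact geoInputNN_of_geoInputLocal (h M ℓ hℓM hM k)

/-- GEO from `Spec78.GeoInput` (global unramifiedness of `K` at `ℓ`) per `(M, ℓ, k)`. -/
theorem geoStatement_of_geoInput
    (h : ∀ (M : ℕ) [NeZero M] (ℓ : ℕ) [Fact ℓ.Prime], ¬ ℓ ∣ M → (4 ∣ M ∨ 9 ∣ M) → ∀ k : ℕ,
      letI := torsDistribMulAction M ((ℓ : ℤ) ^ k)
      GeoInput ℓ ↥(Submodule.torsionBy ℤ (JZero M) ((ℓ : ℤ) ^ k))) :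
    GeoStatement := by
  intro M _ ℓ _ hℓM hM k
  letI := torsDistribMulAction M ((ℓ : ℤ) ^ k)
  exact geoInputNN_of_geoInput (h M ℓ hℓM hM k)

/-- **S32-GLUE** (report 1132, literal): for an unbundled Hecke system `(π, ρ)` at level `N` with
values in `T`, the S19 conclusion at level `N` for all `k` gives flatness of `ρ` at `p`. -/
def S32Glue : Prop :=
  ∀ {p : ℕ} {N : ℕ} [NeZero N] {S : Finset ℕ}
    {𝒪 : Type} [CommRing 𝒪] [IsDomain 𝒪] [IsDiscreteValuationRing 𝒪]
    [IsAdicComplete (IsLocalRing.maximalIdeal 𝒪) 𝒪]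
    {T : Type} [CommRing T] [IsLocalRing T] [IsNoetherianRing T]
    [IsAdicComplete (IsLocalRing.maximalIdeal T) T] [Algebra 𝒪 T] [IsLocalHom (algebraMap 𝒪 T)]
    [Module.Finite 𝒪 T] [Module.Free 𝒪 T]
    [Finite (IsLocalRing.ResidueField 𝒪)] [CharZero 𝒪]
    (_hp : p.Prime) (_hp2 : p ≠ 2) (_hp𝒪 : (p : 𝒪) ∈ IsLocalRing.maximalIdeal 𝒪) (_hpN : ¬ p ∣ N)
    (_hpS : p ∈ S) (_hNS : ∀ q : ℕ, q.Prime → q ∣ N → q ∈ S)
    (π : CuspForm.heckeAlgebra N 2 (↑S : Set ℕ) →+* T)
    (_hadj : Algebra.adjoin 𝒪 (Set.range π) = ⊤)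
    (ρ : GaloisRepAdic T) (_habs : ρ.residual.IsAbsolutelyIrreducible)
    (_hfrob : ∀ (ℓ : ℕ) (hℓ : ℓ.Prime) (hℓN : ¬ ℓ ∣ N) (hℓS : ℓ ∉ (↑S : Set ℕ)),
      ∀ A : ValuationSubring (AlgebraicClosure ℚ), A.LiesOverPrime ℓ →
        ∀ σ : AlgebraicClosure ℚ ≃ₐ[ℚ] AlgebraicClosure ℚ, A.IsFrobeniusAt σ ℓ →
          LinearMap.charpoly (ρ.ρ σ) =
            X ^ 2 - C (π (CuspForm.heckeAlgebra.T hℓ hℓN hℓS)) * X + C ((ℓ : T)))
    (_hS19 : ∀ k : ℕ, FlatModel p ↥(Submodule.torsionBy ℤ (JZero N) ((p : ℤ) ^ k))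
      (torsAct N ((p : ℤ) ^ k))),
    ρ.IsFlatAt p

/-- The contracts of programme FFJ which are still open. -/
structure OpenContracts : Prop where
  /-- chapters CURVE, PIC (PIC-D), FIB, VAL, BRIDGE -/
  geo : GeoStatement

/-! ### S19 -/

/-- `FlatModel` of `J₀(M)[ℓ^k]` at the auxiliary levels, from the open contracts. -/
theorem flatModel_of_openContracts (hO : OpenContracts) (M : ℕ) [NeZero M] (ℓ : ℕ)
    [Fact ℓ.Prime] (hℓM : ¬ ℓ ∣ M) (hM : 4 ∣ M ∨ 9 ∣ M) (k : ℕ) :
    FlatModel ℓ ↥(Submodule.torsionBy ℤ (JZero M) ((ℓ : ℤ) ^ k)) (torsAct M ((ℓ : ℤ) ^ k)) := by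
  letI := torsDistribMulAction M ((ℓ : ℤ) ^ k)
  exact MainNN78.algStatementNN ℓ ↥(Submodule.torsionBy ℤ (JZero M) ((ℓ : ℤ) ^ k))
    (hO.geo M ℓ hℓM hM k)

/-- **S19 from the open contracts.**  The conclusion is literally the frozen S19. -/
theorem s19_of_openContracts (hO : OpenContracts)
    (p : ℕ) [NeZero p] (ℓ : ℕ) [Fact ℓ.Prime] (hℓp : ¬ ℓ ∣ p) (k : ℕ) :
    ∃ (H : Type) (_ : CommRing H) (_ : HopfAlgebra (GaloisRep.ratLocalizedAt ℓ) H),
      Module.Finite (GaloisRep.ratLocalizedAt ℓ) H ∧ Module.Flat (GaloisRep.ratLocalizedAt ℓ) H ∧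
      Coalgebra.IsCocomm (GaloisRep.ratLocalizedAt ℓ) H ∧
      ∃ e : WithConv (H →ₐ[GaloisRep.ratLocalizedAt ℓ] AlgebraicClosure ℚ) ≃
          ↥(Submodule.torsionBy ℤ (JZero p) ((ℓ : ℤ) ^ k)),
        (∀ f g, e (f * g) = e f + e g) ∧
        ∀ (σ : AlgebraicClosure ℚ ≃ₐ[ℚ] AlgebraicClosure ℚ)
          (f g : WithConv (H →ₐ[GaloisRep.ratLocalizedAt ℓ] AlgebraicClosure ℚ)),
          (∀ h : H, g h = σ (f h)) → ((e g : JZero p)) = σ • (e f : JZero p) :=
  s19_of_s19_at_auxLevels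
    (fun M _ ℓ' _ hℓM k' hM =>
      (flatModel_iff_s19 M ℓ' k').mp (flatModel_of_openContracts hO M ℓ' hℓM hM k'))
    p ℓ hℓp k

/-- The S19 conclusion at every level, in `FlatModel` form (what S32-GLUE and ORD consume). -/
theorem flatModel_torsion_of_openContracts (hO : OpenContracts)
    (N : ℕ) [NeZero N] (ℓ : ℕ) [Fact ℓ.Prime] (hℓN : ¬ ℓ ∣ N) (k : ℕ) :
    FlatModel ℓ ↥(Submodule.torsionBy ℤ (JZero N) ((ℓ : ℤ) ^ k)) (torsAct N ((ℓ : ℤ) ^ k)) :=
  (flatModel_iff_s19 N ℓ k).mpr (s19_of_openContracts hO N ℓ hℓN k)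

/-! ### S32 -/

section S32

variable {p : ℕ} {N : ℕ} [NeZero N] {S : Finset ℕ}
  {𝒪 : Type} [CommRing 𝒪] [IsDomain 𝒪] [IsDiscreteValuationRing 𝒪]
  [IsAdicComplete (IsLocalRing.maximalIdeal 𝒪) 𝒪]
  {θ : CuspForm.heckeAlgebra N 2 (↑S : Set ℕ) →+* IsLocalRing.ResidueField 𝒪}
  {T : Type} [CommRing T] [IsLocalRing T] [IsNoetherianRing T]
  [IsAdicComplete (IsLocalRing.maximalIdeal T) T] [Algebra 𝒪 T] [IsLocalHom (algebraMap 𝒪 T)]
  [Module.Finite 𝒪 T] [Module.Free 𝒪 T]

/-- **S32 from the open contracts and S32-GLUE.**  The conclusion is literally the frozen S32. -/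
theorem s32_of_openContracts (hO : OpenContracts) (hG : S32Glue)
    [Finite (IsLocalRing.ResidueField 𝒪)] [CharZero 𝒪]
    (hp : p.Prime) (hp2 : p ≠ 2) (hp𝒪 : (p : 𝒪) ∈ IsLocalRing.maximalIdeal 𝒪) (hpN : ¬ p ∣ N)
    (hpS : p ∈ S) (hNS : ∀ q : ℕ, q.Prime → q ∣ N → q ∈ S)
    (H : CuspForm.HeckeGaloisRepDatum N (↑S : Set ℕ) 𝒪 θ T) :
    H.ρ.IsFlatAt p :=
  haveI : Fact p.Prime := ⟨hp⟩
  hG hp hp2 hp𝒪 hpN hpS hNS H.π H.adjoin_range_π H.ρ H.residual_absIrr H.charpoly_frob
    (fun k => flatModel_torsion_of_openContracts hO N p hpN k)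

end S32

end Fermat.Agent.FFJ.Spec.Status72
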