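/-
Programme FFJ (S19), chapter PIC, slice (D8-TOP) of the assembly ADM (COORD #3/#4 of helper35).
Owner: helper77.

**THE TWO-LEVEL STEP: from the curve + bridge data at ONE level `O₁ = A ∩ K₁` to a function order at
a bigger level `O' = A ∩ K'`, i.e. to `SpecNN78.GeoInputNN`.**

Input, at the level `O₁ = A ∩ K₁` (`K₁` finite over `ℚ`, unramified at the place `A`):
* curve data `(A0 → A01 ← A1; t, s)` over `O₁` with `ChartDefR35.CurveHypR` and a base point `e₁`;
* the bridge `ι₁ : M → ClR O₁ .. ℚ̄` (injective, in `PicZeroR`, equivariant for `Gal(ℚ̄/K₁)`);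
* (D2) FIB-R `SpecD35.FibStatement` (= `FibR6.fibR H₁`);
* (D3) SUPPLY: a set `S` of `A`-valued points of the overlap with infinitely many residues of the
  coordinate, each defined over a finite extension of `K₁` which is unramified at `A`.

Steps: (1) the `A`-models `ξ_m` of the points `ι₁ m` (VAL) and their special fibres over `κ(A)`;
(2) FIB-R over `κ(A)` with the reductions of the supply: points `q_i = res ∘ P_i` making all special
fibres good of the same rank; (3) `K' ⊇ K₁` finite, unramified at `A`, containing the values of the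
`P_i`, with a large residue field (RESFIELD); (4) the level `O' = A ∩ K'`: curve data
`O' ⊗[O₁] A_i` (`CurveBcR85`), `ι' = (baseEquiv ℚ̄)⁻¹ ∘ ι₁` (`LevelIota85`); (5) the rank condition of
CORE-ONE at `O'` from (2) by LEVEL-GOOD and the uniqueness of models at `O₁`; (6) CORE-ONE.

* `geoInputNN_of_two_level`   : the statement with the `t`-coordinate of the supply;
* `geoInputNN_of_two_level_s` : the same with the `s`-coordinate (`t · s = 1` on the overlap).
-/
import Mathlib
import Fermat.Agent.FFJ.Order.GeoWireOne77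
import Fermat.Agent.FFJ.Pic.LevelIota85
import Fermat.Agent.FFJ.Pic.LevelInst85
import Fermat.Agent.FFJ.Pic.LevelGood85
import Fermat.Agent.FFJ.Pic.CoreOne4
import Fermat.Agent.FFJ.Pic.CurveBcR85
import Fermat.Agent.FFJ.Val.ValInjR1
import Fermat.Agent.FFJ.Alg.ResFieldPlace82
import Fermat.Agent.FFJ.Alg.SpecNN78
import Fermat.Agent.ES.KRON.KronInst10

set_option autoImplicit false
set_option linter.style.haveILetI false
set_option linter.unusedSectionVars false
set_option maxHeartbeats 400000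

noncomputable section

namespace Fermat.Agent.FFJ.Spec.GeoTwoLevel77

open scoped TensorProduct
open scoped Fermat.Agent.JAC.Core.ConstFamily36
open Fermat.Agent.JAC.Core.Defs36 Fermat.Agent.JAC.Core.ConstFamily36 Fermat.Agent.JAC.Grp.Diag33
  Fermat.Agent.FFJ.Core.ClR35 Fermat.Agent.FFJ.Core.ClRBc35 Fermat.Agent.TW.FF.FunOrder68
  Fermat.Agent.FFJ.Spec.Spec35 Fermat.Agent.S19.Shell64 Fermat.Agent.FFJ.Alg.Spec78
  Fermat.Agent.FFJ.Alg.SpecLocal78 Fermat.Agent.FFJ.Alg.SpecNN78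
  Fermat.Agent.TW.FF.FlatModel68 Fermat.Agent.FFJ.Order.GeoWire77 Fermat.Agent.FFJ.Order.AdmOne77
  Fermat.Agent.FFJ.Order.GeoWireOne77 Fermat.Agent.FFJ.Order.ValConj77
  Fermat.Agent.FFJ.Pic.SpecD35 Fermat.Agent.FFJ.Pic.BaseEquiv85 Fermat.Agent.FFJ.Pic.LevelIota85
  Fermat.Agent.FFJ.Pic.LevelInst85

/-! ### Two list lemmas -/

theorem exists_list_map_eq {α β γ : Type*} (f : β → γ) (g : α → γ) (l : List β)
    (h : ∀ b ∈ l, ∃ a, g a = f b) : ∃ L : List α, L.map g = l.map f := by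
  induction l with
  | nil => exact ⟨[], rfl⟩
  | cons b l ih =>
    obtain ⟨a, ha⟩ := h b List.mem_cons_self
    obtain ⟨L, hL⟩ := ih fun b' hb' => h b' (List.mem_cons_of_mem _ hb')
    exact ⟨a :: L, by rw [List.map_cons, List.map_cons, ha, hL]⟩

/-- A finite compositum: finitely many conditions, each satisfied over some finite extension of `K₁`
unramified at `A` and stable under enlarging the field, hold over one such extension. -/
theorem exists_field_of_list (A : ValuationSubring Qbar) (K₁ : IntermediateField ℚ Qbar)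
    [FiniteDimensional ℚ K₁] (hunr : UnramAtPlace A K₁) {β : Type*}
    (R : β → IntermediateField ℚ Qbar → Prop)
    (hmono : ∀ b K K', K ≤ K' → R b K → R b K') (l : List β)
    (h : ∀ b ∈ l, ∃ K : IntermediateField ℚ Qbar, FiniteDimensional ℚ K ∧ K₁ ≤ K ∧
      UnramAtPlace A K ∧ R b K) :
    ∃ K : IntermediateField ℚ Qbar, FiniteDimensional ℚ K ∧ K₁ ≤ K ∧ UnramAtPlace A K ∧
      ∀ b ∈ l, R b K := by
  induction l with
  | nil => exact ⟨K₁, inferInstance, le_rfl, hunr, fun b hb => absurd hb (List.not_mem_nil)⟩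
  | cons b l ih =>
    obtain ⟨K, hfd, hle, hu, hR⟩ := ih fun b' hb' => h b' (List.mem_cons_of_mem _ hb')
    obtain ⟨Kb, hfdb, hleb, hub, hRb⟩ := h b List.mem_cons_self
    haveI := hfd
    haveI := hfdb
    refine ⟨K ⊔ Kb, IntermediateField.finiteDimensional_sup K Kb, hle.trans le_sup_left,
      Fermat.Agent.FFJ.Alg.UnramPlace92.unramAtPlace_sup hu hub, ?_⟩
    intro b' hb'
    rcases List.mem_cons.mp hb' with rfl | hb'
    · exact hmono _ _ _ le_sup_right hRb
    · exact hmono _ _ _ le_sup_left (hR b' hb')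

/-! ### The two-level step -/

/-- **(D8-TOP)**: curve + bridge data at the level `O₁ = A ∩ K₁`, FIB-R and a supply of `A`-valued
points of the overlap defined over extensions unramified at `A` give `SpecNN78.GeoInputNN`
(a function order for `M` at the place `A` of a finite extension `K' ⊇ K₁` unramified at `A`). -/
theorem geoInputNN_of_two_level (l : ℕ) (hl : l.Prime) (M : Type) [AddCommGroup M] [Finite M]
    [DistribMulAction GQ M]
    (K₁ : IntermediateField ℚ Qbar) [FiniteDimensional ℚ K₁]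
    (A : ValuationSubring Qbar) (hA : A.LiesOverPrime l) (hunr : UnramAtPlace A K₁)
    (A0 A1 A01 : Type) [CommRing A0] [CommRing A1] [CommRing A01]
    [Algebra (OK K₁ A) A0] [Algebra (OK K₁ A) A1] [Algebra (OK K₁ A) A01] [Algebra A0 A01]
    [Algebra A1 A01] [IsScalarTower (OK K₁ A) A0 A01] [IsScalarTower (OK K₁ A) A1 A01]
    (t : A0) (s : A1) [IsLocalization.Away t A01] [IsLocalization.Away s A01]
    (H₁ : Fermat.Agent.FFJ.Pic.ChartDefR35.CurveHypR (OK K₁ A) A0 A1 A01 t s)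
    (e₁ : A01 →ₐ[OK K₁ A] OK K₁ A)
    (ι₁ : Multiplicative M →* ClR (OK K₁ A) A0 A1 A01 t s Qbar) (hinj : Function.Injective ι₁)
    (hmem : ∀ m, ι₁ m ∈ PicZeroR e₁ Qbar)
    (hequiv : ∀ (σ : Qbar ≃ₐ[K₁] Qbar) (m : M),
      ι₁ (Multiplicative.ofAdd ((σ.restrictScalars ℚ : GQ) • m)) =
        galActR (OK K₁ A) K₁ σ (ι₁ (Multiplicative.ofAdd m)))
    (hFib : FibStatement (OK K₁ A) A0 A1 A01 t s H₁.hts)
    (S : letI := algebraOKA K₁ A; Set (A01 →ₐ[OK K₁ A] A))
    (hSinf : letI := algebraOKA K₁ A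
      ((fun P : A01 →ₐ[OK K₁ A] A => IsLocalRing.residue A (P (algebraMap A0 A01 t))) '' S).Infinite)
    (hSunr : letI := algebraOKA K₁ A
      ∀ P ∈ S, ∃ K' : IntermediateField ℚ Qbar, FiniteDimensional ℚ K' ∧ K₁ ≤ K' ∧
        UnramAtPlace A K' ∧ ∀ a, ((P a : A) : Qbar) ∈ K') :
    GeoInputNN l M := by
  letI := algebraOKA K₁ A
  haveI := isScalarTower_OKA K₁ A
  haveI : IsDiscreteValuationRing (OK K₁ A) :=
    Fermat.Agent.RED.DESC.NumberFieldDVR27.isDiscreteValuationRing_AK A K₁ hl.ne_zero hA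
  haveI := isAlgebraic_OK_Qbar A K₁
  haveI : IsAlgClosed (IsLocalRing.ResidueField A) :=
    Fermat.Agent.ES.KRON.KronInst10.isAlgClosed_residueField A
  have hinjO := algebraMap_OK_Qbar_injective A K₁
  -- (1) the `A`-models of the points and their special fibres
  have hmod : ∀ m : M, ∃ ξ : ClR (OK K₁ A) A0 A1 A01 t s A, ξ ∈ PicZeroR e₁ A ∧
      bcR (IsScalarTower.toAlgHom (OK K₁ A) A Qbar) ξ = ι₁ (Multiplicative.ofAdd m) := fun m =>
    (Fermat.Agent.FFJ.Val.ValInjR1.existsUnique_extension e₁ H₁ hinjO A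
      (ι₁ (Multiplicative.ofAdd m)) (hmem _)).exists
  choose ξ_ hξ_ hξι using hmod
  have hdeg : ∀ m, IsDegZeroR (IsLocalRing.ResidueField A) (bcR (resV A) (ξ_ m)) := fun m =>
    isDegZeroR_bcR _ _ (hξ_ m).2
  -- (2) FIB-R with the reductions of the supply
  have hS' : ((fun q : A01 →ₐ[OK K₁ A] IsLocalRing.ResidueField A => q (algebraMap A0 A01 t)) ''
      ((fun P : A01 →ₐ[OK K₁ A] A => (resV A).comp P) '' S)).Infinite := by
    rw [Set.image_image]
    exact hSinf
  obtain ⟨lq, n, -, hlS, hgood⟩ := hFib (IsLocalRing.ResidueField A) M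
    (fun m => bcR (resV A) (ξ_ m)) hdeg _ hS'
  -- (3) the field of definition of the chosen points, with a large residue field
  obtain ⟨K'', hfd'', hle'', hu'', hR''⟩ := exists_field_of_list A K₁ hunr
    (fun (q : A01 →ₐ[OK K₁ A] IsLocalRing.ResidueField A) K => ∃ P : A01 →ₐ[OK K₁ A] A,
      (resV A).comp P = q ∧ ∀ a, ((P a : A) : Qbar) ∈ K)
    (fun q K K' hKK' ⟨P, hP, hPK⟩ => ⟨P, hP, fun a => hKK' (hPK a)⟩) lq
    (fun q hq => by
      obtain ⟨P, hPS, hPq⟩ := hlS q hq
      obtain ⟨K', hfd, hle, hu, hv⟩ := hSunr P hPS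
      exact ⟨K', hfd, hle, hu, P, hPq, hv⟩)
  haveI := hfd''
  obtain ⟨K', hfd', hu', hle', -, hfin', hcard'⟩ :=
    Fermat.Agent.FFJ.Alg.ResFieldPlace82.exists_unramAtPlace_large_resField l hl A hA K'' hu''
      (Nat.card M)
  have hK : K₁ ≤ K' := hle''.trans hle'
  -- (4) the level `O' = A ∩ K'`
  letI := algebraOKOK hK A
  letI := algebraOKA K' A
  haveI := isScalarTower_OKA K' A
  haveI := isScalarTower_OKOK_A hK A
  haveI := isScalarTower_OKOK_Qbar hK A
  haveI := isScalarTower_OKOK_residue hK A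
  haveI := flat_OKOK hK A
  haveI := hfd'
  haveI : IsDiscreteValuationRing (OK K' A) :=
    Fermat.Agent.RED.DESC.NumberFieldDVR27.isDiscreteValuationRing_AK A K' hl.ne_zero hA
  haveI := isAlgebraic_OK_Qbar A K'
  haveI := isGalois_K_Qbar K'
  letI : MulAction (Qbar ≃ₐ[K'] Qbar) M := resMulAction K' M
  have H' := Fermat.Agent.FFJ.Pic.CurveBcR85.curveHypR_bc (OK K₁ A) (OK K' A) H₁
  -- the chosen points as `O'`-valued points of `U0`
  obtain ⟨L, hL⟩ := exists_list_map_eq
    (fun q : A01 →ₐ[OK K₁ A] IsLocalRing.ResidueField A =>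
      ptClassR (A1 := A1) (A01 := A01) (t := t) (s := s) H₁.hts
        (q.comp (IsScalarTower.toAlgHom (OK K₁ A) A0 A01)))
    (fun P : A0 →ₐ[OK K₁ A] OK K' A =>
      ptClassR (A1 := A1) (A01 := A01) (t := t) (s := s) H₁.hts
        (((Algebra.ofId (OK K' A) (IsLocalRing.ResidueField A)).restrictScalars (OK K₁ A)).comp P))
    lq (fun q hq => by
      obtain ⟨P, hPq, hPK⟩ := hR'' q hq
      have hPK' : ∀ a, ((P a : A) : Qbar) ∈ K' := fun a => hle' (hPK a)
      refine ⟨(codRestrictOK hK A P hPK').comp (IsScalarTower.toAlgHom (OK K₁ A) A0 A01), ?_⟩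
      show ptClassR H₁.hts _ = ptClassR H₁.hts _
      rw [← AlgHom.comp_assoc, ofId_comp_codRestrictOK hK A P hPK', hPq])
  -- (5) + (6) CORE-ONE at the level `O'`
  refine Exists.elim (Fermat.Agent.FFJ.Pic.CoreOne4.exists_isFunOrder_of_goodAtRank K'
    (algebraMap_OK_Qbar_injective A K') H' (rigHom (OK K' A) e₁) M
    (levelHom (OK K' A) ι₁) (levelHom_injective (OK K' A) hinj)
    (levelHom_mem_picZeroR (OK K' A) e₁ hmem) (levelHom_equivariant A hK ι₁ hequiv) A
    (liesOverBase_OKA K' A)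
    (fun _ => (baseEquiv (OK K₁ A) A0 A1 A01 t s (OK K' A) (OK K' A)).symm
      ((L.map (ptClassR (A1 := A1) (A01 := A01) (t := t) (s := s) H₁.hts)).prod)) n
    (Or.inr hcard') ?_) (fun Hs hHs => ⟨K', hfd', A, hA, hu', Hs, hHs⟩)
  intro ξ' m hξ' hξ'm
  rw [Fermat.Agent.FFJ.Pic.LevelGood85.goodAtRank_twist_baseEquiv e₁ H₁, hL,
    ← baseEquiv_special hK A ξ']
  have hmodel : baseEquiv (OK K₁ A) A0 A1 A01 t s (OK K' A) A ξ' =
      ξ_ (Multiplicative.toAdd m) := by
    refine Fermat.Agent.FFJ.Val.ValInjR1.valInj' e₁ H₁ hinjO A _ _ ?_ (hξ_ _) ?_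
    · exact (baseEquiv_mem_picZeroR (OK K₁ A) A0 A1 A01 t s (OK K' A) A e₁ ξ').mpr hξ'
    · rw [baseEquiv_generic hK A ξ', hξ'm, baseEquiv_levelHom, hξι]
      rfl
  rw [hmodel]
  exact hgood (Multiplicative.toAdd m)

/-- **(D8-TOP), `s`-coordinate form**: the same with the supply having infinitely many residues of the
coordinate `s` of the second chart (`t · s = 1` on the overlap, so the residues of `t` are the inverses
of the residues of `s`). -/
theorem geoInputNN_of_two_level_s (l : ℕ) (hl : l.Prime) (M : Type) [AddCommGroup M] [Finite M]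
    [DistribMulAction GQ M]
    (K₁ : IntermediateField ℚ Qbar) [FiniteDimensional ℚ K₁]
    (A : ValuationSubring Qbar) (hA : A.LiesOverPrime l) (hunr : UnramAtPlace A K₁)
    (A0 A1 A01 : Type) [CommRing A0] [CommRing A1] [CommRing A01]
    [Algebra (OK K₁ A) A0] [Algebra (OK K₁ A) A1] [Algebra (OK K₁ A) A01] [Algebra A0 A01]
    [Algebra A1 A01] [IsScalarTower (OK K₁ A) A0 A01] [IsScalarTower (OK K₁ A) A1 A01]
    (t : A0) (s : A1) [IsLocalization.Away t A01] [IsLocalization.Away s A01]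
    (H₁ : Fermat.Agent.FFJ.Pic.ChartDefR35.CurveHypR (OK K₁ A) A0 A1 A01 t s)
    (e₁ : A01 →ₐ[OK K₁ A] OK K₁ A)
    (ι₁ : Multiplicative M →* ClR (OK K₁ A) A0 A1 A01 t s Qbar) (hinj : Function.Injective ι₁)
    (hmem : ∀ m, ι₁ m ∈ PicZeroR e₁ Qbar)
    (hequiv : ∀ (σ : Qbar ≃ₐ[K₁] Qbar) (m : M),
      ι₁ (Multiplicative.ofAdd ((σ.restrictScalars ℚ : GQ) • m)) =
        galActR (OK K₁ A) K₁ σ (ι₁ (Multiplicative.ofAdd m)))
    (hFib : FibStatement (OK K₁ A) A0 A1 A01 t s H₁.hts)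
    (S : letI := algebraOKA K₁ A; Set (A01 →ₐ[OK K₁ A] A))
    (hSinf : letI := algebraOKA K₁ A
      ((fun P : A01 →ₐ[OK K₁ A] A => IsLocalRing.residue A (P (algebraMap A1 A01 s))) '' S).Infinite)
    (hSunr : letI := algebraOKA K₁ A
      ∀ P ∈ S, ∃ K' : IntermediateField ℚ Qbar, FiniteDimensional ℚ K' ∧ K₁ ≤ K' ∧
        UnramAtPlace A K' ∧ ∀ a, ((P a : A) : Qbar) ∈ K') :
    GeoInputNN l M := by
  letI := algebraOKA K₁ A
  refine geoInputNN_of_two_level l hl M K₁ A hA hunr A0 A1 A01 t s H₁ e₁ ι₁ hinj hmem hequiv hFib S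
    ?_ hSunr
  have hinv : ∀ P : A01 →ₐ[OK K₁ A] A, IsLocalRing.residue A (P (algebraMap A0 A01 t)) =
      (IsLocalRing.residue A (P (algebraMap A1 A01 s)))⁻¹ := fun P => by
    refine eq_inv_of_mul_eq_one_left ?_
    rw [← map_mul, ← map_mul, H₁.hts, map_one, map_one]
  have himg : (fun P : A01 →ₐ[OK K₁ A] A => IsLocalRing.residue A (P (algebraMap A0 A01 t))) '' S =
      (fun x : IsLocalRing.ResidueField A => x⁻¹) ''
        ((fun P : A01 →ₐ[OK K₁ A] A => IsLocalRing.residue A (P (algebraMap A1 A01 s))) '' S) := by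
    rw [Set.image_image]
    exact Set.image_congr fun P _ => hinv P
  rw [himg]
  exact hSinf.image (inv_injective.injOn)

end Fermat.Agent.FFJ.Spec.GeoTwoLevel77
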