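/-
Programme FFJ (S19), chapter GEO: **the assembly** (helper72, integrator).

* `geoInputNN_of_curve` : CURVE (`CurveHypR` + base point + `Frac A01 = FK M K₁`, any presentation with
  `A01` a subalgebra of `FK M K₁` over `O₁ = A ∩ K₁`) + BRIDGE (`BridgeSubalgebra96`) + FIB-R
  (`FibR6.fibR`) + SUPPLY + the two-level step (`GeoTwoLevel77`) give `SpecNN78.GeoInputNN` for every
  finite Galois module embedded equivariantly in `J₀(M)`.
* `geoInputNN_of_curveOut` : the same for the LITERAL conclusion of `CurveOut17.curveOut` over an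
  arbitrary valuation subring `O` of `K₁` which is EQUAL to `A ∩ K₁` (so it applies both to RED's
  `AK A K₁`, a plain `def`, and to `GeoWire77.OK K₁ A`, with `hO := rfl`);
* `geoInputNN_of_explicitModel` : from the explicit two-chart model at the Hauptmodul
  (`ModelGeneric87.ExplicitModelAt`) and purity off a set of values (`SmoothOffPoly39.SmoothOffPoly`);
* `geoInputNN_torsion`, **`geoStatement : Status72.GeoStatement`**, `openContracts`: the open contract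
  of programme FFJ is closed (field `K₀` of `ModelExplicit87.exists_explicitModel`, place
  `padicPlace ℓ`, `SmoothOffPointwise72.smoothOffPoly_pointwise`).
-/
import Mathlib
import Fermat.Agent.FFJ.Spec.Status72
import Fermat.Agent.FFJ.Spec.GeoTwoLevel77
import Fermat.Agent.FFJ.Bridge.TorsionBridge96
import Fermat.Agent.FFJ.Fib.FibR6
import Fermat.Agent.FFJ.Model.CurveMin17
import Fermat.Agent.FFJ.Model.SupplyBridge64
import Fermat.Agent.FFJ.Model.ModelExplicit87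
import Fermat.Agent.FFJ.Model.SmoothOffPointwise72
import Fermat.Agent.TW.OrdLocal.PadicPlace97

set_option autoImplicit false
set_option linter.style.haveILetI false
set_option linter.unusedSectionVars false

noncomputable section

namespace Fermat.Agent.FFJ.Spec.Geo72

open scoped TensorProduct
open ModularCurve Polynomial
open Fermat.Agent.FFJ.Core.ClR35 Fermat.Agent.FFJ.Core.ClRBc35 Fermat.Agent.FFJ.Spec.Spec35
  Fermat.Agent.S19.Shell64 Fermat.Agent.FFJ.Alg.Spec78 Fermat.Agent.FFJ.Alg.SpecLocal78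
  Fermat.Agent.FFJ.Alg.SpecNN78
  Fermat.Agent.TW.FF.FlatModel68 Fermat.Agent.FFJ.Order.GeoWire77
  Fermat.Agent.FFJ.Order.GeoWireOne77
open Fermat.Agent.RED.Interface4 (FK)

attribute [local instance 2000] SubalgebraClass.toAlgebra

/-! ### Generic form over `OK K₁ A` -/

/-- **CURVE + BRIDGE + FIB-R + SUPPLY ⇒ `GeoInputNN`** (supply stated in the coordinate `s`). -/
theorem geoInputNN_of_curve_supply (l : ℕ) (hl : l.Prime) (Mlev : ℕ)
    (T : Type) [AddCommGroup T] [Finite T] [DistribMulAction GQ T]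
    (f : T →+ JZero Mlev) (hf : Function.Injective f)
    (hact : ∀ (σ : GQ) (m : T), f (σ • m) = σ • f m)
    (K₁ : IntermediateField ℚ Qbar) [FiniteDimensional ℚ K₁] (A : ValuationSubring Qbar)
    (hA : A.LiesOverPrime l) (hunr : UnramAtPlace A K₁)
    [Algebra (OK K₁ A) (FK Mlev K₁)] [IsScalarTower (OK K₁ A) K₁ (FK Mlev K₁)]
    (B01 : Subalgebra (OK K₁ A) (FK Mlev K₁))
    {A0 A1 : Type} [CommRing A0] [CommRing A1]
    [Algebra (OK K₁ A) A0] [Algebra (OK K₁ A) A1] [Algebra A0 B01] [Algebra A1 B01]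
    [IsScalarTower (OK K₁ A) A0 B01] [IsScalarTower (OK K₁ A) A1 B01] {t : A0} {s : A1}
    [IsLocalization.Away t B01] [IsLocalization.Away s B01]
    (H : Fermat.Agent.FFJ.Pic.ChartDefR35.CurveHypR (OK K₁ A) A0 A1 B01 t s)
    (e : B01 →ₐ[OK K₁ A] OK K₁ A)
    (hfr : ∀ x : FK Mlev K₁, ∃ a ∈ B01, ∃ b ∈ B01, b ≠ 0 ∧ x * b = a)
    (S : letI := algebraOKA K₁ A; Set (B01 →ₐ[OK K₁ A] ↥A))
    (hSinf : letI := algebraOKA K₁ A
      ((fun P : B01 →ₐ[OK K₁ A] ↥A =>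
        IsLocalRing.residue ↥A (P (algebraMap A1 B01 s))) '' S).Infinite)
    (hSunr : letI := algebraOKA K₁ A
      ∀ P ∈ S, ∃ K' : IntermediateField ℚ Qbar, FiniteDimensional ℚ K' ∧ K₁ ≤ K' ∧
        UnramAtPlace A K' ∧ ∀ a, ((P a : ↥A) : Qbar) ∈ K') :
    GeoInputNN l T := by
  obtain ⟨ι, hinj, hmem, hequiv⟩ :=
    Fermat.Agent.FFJ.Bridge.BridgeSubalgebra96.exists_bridge_subalgebra Mlev K₁ (OK K₁ A) B01 H e hfr
      f hf hact
  exact Fermat.Agent.FFJ.Spec.GeoTwoLevel77.geoInputNN_of_two_level_s l hl T K₁ A hA hunr A0 A1 B01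
    t s H e ι hinj hmem hequiv (Fermat.Agent.FFJ.Fib.FibR6.fibR H) S hSinf hSunr

/-- **CURVE + BRIDGE + FIB-R + SUPPLY ⇒ `GeoInputNN`**, with SUPPLY reduced (`SupplyCurve64`) to the
polynomial local-parameter property `hpoly` of the chart `A1` in its coordinate `s`, off a set `S₀`
of values. -/
theorem geoInputNN_of_curve (l : ℕ) (hl : l.Prime) (Mlev : ℕ)
    (T : Type) [AddCommGroup T] [Finite T] [DistribMulAction GQ T]
    (f : T →+ JZero Mlev) (hf : Function.Injective f)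
    (hact : ∀ (σ : GQ) (m : T), f (σ • m) = σ • f m)
    (K₁ : IntermediateField ℚ Qbar) [FiniteDimensional ℚ K₁] (A : ValuationSubring Qbar)
    (hA : A.LiesOverPrime l) (hunr : UnramAtPlace A K₁)
    [Algebra (OK K₁ A) (FK Mlev K₁)] [IsScalarTower (OK K₁ A) K₁ (FK Mlev K₁)]
    (B01 : Subalgebra (OK K₁ A) (FK Mlev K₁))
    {A0 A1 : Type} [CommRing A0] [CommRing A1]
    [Algebra (OK K₁ A) A0] [Algebra (OK K₁ A) A1] [Algebra A0 B01] [Algebra A1 B01]
    [IsScalarTower (OK K₁ A) A0 B01] [IsScalarTower (OK K₁ A) A1 B01] {t : A0} {s : A1}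
    [IsLocalization.Away t B01] [IsLocalization.Away s B01]
    (H : Fermat.Agent.FFJ.Pic.ChartDefR35.CurveHypR (OK K₁ A) A0 A1 B01 t s)
    (e : B01 →ₐ[OK K₁ A] OK K₁ A)
    (hfr : ∀ x : FK Mlev K₁, ∃ a ∈ B01, ∃ b ∈ B01, b ≠ 0 ∧ x * b = a)
    (S₀ : Set (OK K₁ A))
    (hpoly : ∀ x : Ideal A1, x.IsMaximal →
      (∀ r ∈ IsLocalRing.maximalIdeal (OK K₁ A), algebraMap (OK K₁ A) A1 r ∈ x) →
      (∀ c ∈ S₀, s - algebraMap (OK K₁ A) A1 c ∉ x) →
      ∃ f : (OK K₁ A)[X], aeval s f ∈ x ∧ ∀ y ∈ x, ∃ d, d ∉ x ∧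
        d * y ∈ Ideal.map (algebraMap (OK K₁ A) A1) (IsLocalRing.maximalIdeal (OK K₁ A)) ⊔
          Ideal.span {aeval s f}) :
    GeoInputNN l T := by
  obtain ⟨S, -, hSinf, hSunr⟩ :=
    Fermat.Agent.FFJ.Model.SupplyCurve64.supply_of_curveHypR l hl K₁ A hA hunr A0 A1 B01 t s H S₀
      hpoly
  exact geoInputNN_of_curve_supply l hl Mlev T f hf hact K₁ A hA hunr B01 H e hfr S hSinf hSunr

/-! ### The literal shape of `CurveOut17.curveOut` -/

section CurveOut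

open Fermat.Agent.RED.CORE.CoreIface24 Fermat.Agent.RED.PUR.ChartGeneric22
  Fermat.Agent.RED.PUR.GaussGen8 Fermat.Agent.FFJ.Model.ChartBridge17
  Fermat.Agent.FFJ.Model.MobiusModel17 Fermat.Agent.FFJ.Model.BasePoint17
  Fermat.Agent.FFJ.Model.PolyTransfer39

attribute [local instance] isScalarTower_OE'

set_option synthInstance.maxHeartbeats 400000 in
set_option maxHeartbeats 3200000 in
/-- **CURVE (literal conclusion of `CurveOut17.curveOut`) + SUPPLY ⇒ `GeoInputNN`**, over a valuation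
subring `O` of `K₁` EQUAL to `A ∩ K₁` (`hO := rfl` for RED's `AK A K₁` and for `OK K₁ A`).  SUPPLY
enters through `h0`, the polynomial form of purity on the first chart `chart O t` off a set `S` of
values (`SupplyBridge64.supply_of_h0`). -/
theorem geoInputNN_of_curveOut (l : ℕ) (hl : l.Prime) (Mlev : ℕ)
    (T : Type) [AddCommGroup T] [Finite T] [DistribMulAction GQ T]
    (f : T →+ JZero Mlev) (hf : Function.Injective f)
    (hact : ∀ (σ : GQ) (m : T), f (σ • m) = σ • f m)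
    (K₁ : IntermediateField ℚ Qbar) [FiniteDimensional ℚ K₁] (A : ValuationSubring Qbar)
    (hA : A.LiesOverPrime l) (hunr : UnramAtPlace A K₁)
    (O : ValuationSubring ↥K₁) (hO : O = A.comap (algebraMap ↥K₁ Qbar))
    {π : ↥O} (hu : IsUnif O π) (hE : FK Mlev K₁ ≤ fracField O) (t : ↥(FK Mlev K₁))
    (ht0 : t ≠ 0) (ht1 : t - 1 ≠ 0)
    (hM : TwoChartModel ↥O ↥K₁ ↥(FK Mlev K₁) π (mob t) (chart ↥O (mob t)) (chart ↥O t⁻¹)
      (gaussVS hu (FK Mlev K₁) hE))
    (H : letI := algebra0 (B0 := chart ↥O (mob t)) hM.t_mem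
      letI := algebra1 hM
      haveI := isScalarTower0 (B0 := chart ↥O (mob t)) hM.t_mem
      haveI := isScalarTower1 hM
      haveI := isLocalization_away0 hM
      haveI := isLocalization_away1 hM
      Fermat.Agent.FFJ.Pic.ChartDefR35.CurveHypR ↥O ↥(chart ↥O (mob t)) ↥(chart ↥O t⁻¹)
        ↥(overlap (mob t) (chart ↥O (mob t)) hM.t_mem)
        (⟨mob t, hM.t_mem⟩ : chart ↥O (mob t)) (⟨(mob t)⁻¹, hM.tinv_mem⟩ : chart ↥O t⁻¹))
    (e : ↥(overlap (mob t) (chart ↥O (mob t)) hM.t_mem) →ₐ[↥O] ↥O)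
    (hfr : ∀ x : ↥(FK Mlev K₁), ∃ a ∈ overlap (mob t) (chart ↥O (mob t)) hM.t_mem,
      ∃ b ∈ overlap (mob t) (chart ↥O (mob t)) hM.t_mem, b ≠ 0 ∧ x * b = a)
    (S : Set ↥O)
    (h0 : ∀ x : Ideal (chart ↥O t), x.IsMaximal → algebraMap ↥O (chart ↥O t) π ∈ x →
      (∀ c ∈ S, tch ↥O t - algebraMap ↥O (chart ↥O t) c ∉ x) → LocPoly π t x) :
    GeoInputNN l T := by
  subst hO
  letI := algebra0 (B0 := chart ↥(A.comap (algebraMap ↥K₁ Qbar)) (mob t)) hM.t_mem
  letI := algebra1 hM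
  haveI := isScalarTower0 (B0 := chart ↥(A.comap (algebraMap ↥K₁ Qbar)) (mob t)) hM.t_mem
  haveI := isScalarTower1 hM
  haveI := isLocalization_away0 hM
  haveI := isLocalization_away1 hM
  have hs : (⟨(mob t)⁻¹, hM.tinv_mem⟩ : chart ↥(A.comap (algebraMap ↥K₁ Qbar)) t⁻¹) =
      1 - tch ↥(A.comap (algebraMap ↥K₁ Qbar)) t⁻¹ := Subtype.ext (mob_inv ht0 ht1)
  obtain ⟨S', -, hSinf, hSunr⟩ :=
    Fermat.Agent.FFJ.Model.SupplyBridge64.supply_of_h0 l hl K₁ A hA hunr π hu.max_eq ht0 S h0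
      ↥(chart ↥(A.comap (algebraMap ↥K₁ Qbar)) (mob t))
      ↥(overlap (mob t) (chart ↥(A.comap (algebraMap ↥K₁ Qbar)) (mob t)) hM.t_mem)
      (⟨mob t, hM.t_mem⟩ : chart ↥(A.comap (algebraMap ↥K₁ Qbar)) (mob t))
      (⟨(mob t)⁻¹, hM.tinv_mem⟩ : chart ↥(A.comap (algebraMap ↥K₁ Qbar)) t⁻¹) hs H
  exact geoInputNN_of_curve_supply l hl Mlev T f hf hact K₁ A hA hunr
    (overlap (mob t) (chart ↥(A.comap (algebraMap ↥K₁ Qbar)) (mob t)) hM.t_mem) H e hfr S' hSinf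
    hSunr

set_option synthInstance.maxHeartbeats 400000 in
set_option maxHeartbeats 3200000 in
/-- **The explicit two-chart model at the Hauptmodul + purity off a set of values ⇒ `GeoInputNN`**
(generic `O = A ∩ K₁`): `CurveMin17.curveOut_tq_of_model` then `geoInputNN_of_curveOut`. -/
theorem geoInputNN_of_explicitModel (l : ℕ) (hl : l.Prime) (Mlev : ℕ)
    (T : Type) [AddCommGroup T] [Finite T] [DistribMulAction GQ T]
    (f : T →+ JZero Mlev) (hf : Function.Injective f)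
    (hact : ∀ (σ : GQ) (m : T), f (σ • m) = σ • f m)
    (K₁ : IntermediateField ℚ Qbar) [FiniteDimensional ℚ K₁] (A : ValuationSubring Qbar)
    (hA : A.LiesOverPrime l) (hunr : UnramAtPlace A K₁)
    (O : ValuationSubring ↥K₁) (hO : O = A.comap (algebraMap ↥K₁ Qbar))
    [IsDiscreteValuationRing ↥O] [Finite (Res O)]
    {π : ↥O} (hπ : Irreducible π) (n e : ℕ) [NeZero n] (t : ↥(FK Mlev K₁))
    (htq : (t : LaurentSeries ↥K₁) = Fermat.Agent.RED.BASE.EtaQuot12.tq ↥K₁ n e)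
    (hmodel : Fermat.Agent.FFJ.Model.ModelGeneric87.ExplicitModelAt O (FK Mlev K₁) π t)
    (S : Set ↥O)
    (h0 : Fermat.Agent.FFJ.Model.SmoothOffPoly39.SmoothOffPoly O (FK Mlev K₁) π t S) :
    GeoInputNN l T := by
  obtain ⟨hU, hE, ht, htr, htrK, hfin, hmod⟩ := hmodel.out
  have ht0 : t ≠ 0 := Fermat.Agent.FFJ.Model.CurveAsm17.ne_zero_of_transcendental htrK
  have ht1 : t - 1 ≠ 0 := Fermat.Agent.FFJ.Model.CurveAsm17.sub_one_ne_zero' htrK
  obtain ⟨hM, H, ⟨e', -⟩, hfr⟩ :=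
    Fermat.Agent.FFJ.Model.CurveMin17.curveOut_tq_of_model hπ hU hE n e t htq hmod
  exact geoInputNN_of_curveOut l hl Mlev T f hf hact K₁ A hA hunr O hO hU hE t ht0 ht1 hM H e' hfr S
    (fun x hx hπx hS => h0 x hx hπx hS)

end CurveOut

/-! ### The top: `Status72.GeoStatement` -/

section Top

open Fermat.Agent.X0 Fermat.Agent.RED.ModelTargets4
open Fermat.Agent.RED.Interface4 Fermat.Agent.RED.BASE Fermat.Agent.RED.BASE.Hauptmodul12
  Fermat.Agent.RED.BASE.MainCusp12 Fermat.Agent.RED.BASE.EtaQuot12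
  Fermat.Agent.RED.DESC.NumberFieldDVR27 Fermat.Agent.TW.OrdLocal.PadicPlace97
  Fermat.Agent.FFJ.Spec.Status72
open scoped MatrixGroups

set_option synthInstance.maxHeartbeats 400000 in
set_option maxHeartbeats 3200000 in
/-- **GEO at one level** `Mlev` divisible by `n ∈ {4, 9}`, `ℓ ∤ Mlev`: the explicit unramified field
`K₀` of `ModelExplicit87` (cusp values and `ζ_M`), the place `padicPlace ℓ`, the explicit two-chart
model at the Hauptmodul `tq K₀ n e`, purity off the cusp values at `K₀`. -/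
theorem geoInputNN_torsion {n e : ℕ} [NeZero n] (hb : BaseHyp n e) (Mlev : ℕ) [NeZero Mlev]
    (hnM : n ∣ Mlev) (ℓ : ℕ) [Fact ℓ.Prime] (hℓM : ¬ ℓ ∣ Mlev)
    (cv : SL(2, ℤ) → Option Kbar) (hcv : CuspExports n e Mlev cv) (k : ℕ) :
    letI := torsDistribMulAction Mlev ((ℓ : ℤ) ^ k)
    GeoInputNN ℓ ↥(Submodule.torsionBy ℤ (JZero Mlev) ((ℓ : ℤ) ^ k)) := by
  have hℓ : ℓ.Prime := Fact.out
  letI := torsDistribMulAction Mlev ((ℓ : ℤ) ^ k)
  haveI : Finite ↥(Submodule.torsionBy ℤ (JZero Mlev) ((ℓ : ℤ) ^ k)) :=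
    Fermat.Agent.FFJ.Bridge.TorsionBridge96.finite_torsionBy Mlev _
      (pow_ne_zero _ (by exact_mod_cast hℓ.ne_zero))
  obtain ⟨K₀, hfd, hunr, -, -, hS, hmodel⟩ :=
    Fermat.Agent.FFJ.Model.ModelExplicit87.exists_explicitModel hb hnM hℓM cv hcv
  haveI := hfd
  have hA := padicPlace_liesOverPrime ℓ
  haveI hdvr : IsDiscreteValuationRing ↥(AK (padicPlace ℓ) K₀) :=
    isDiscreteValuationRing_AK (padicPlace ℓ) K₀ hℓ.ne_zero hA
  haveI hfinres : Finite (Fermat.Agent.RED.PUR.GaussGen8.Res (AK (padicPlace ℓ) K₀)) :=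
    finite_residueField_AK (padicPlace ℓ) K₀ hℓ.ne_zero hA
  obtain ⟨ϖ, hϖ⟩ := IsDiscreteValuationRing.exists_irreducible ↥(AK (padicPlace ℓ) K₀)
  have hB := Main12.baseExports hb Mlev hnM
  have htmem : tq ↥K₀ n e ∈ FK Mlev K₀ :=
    Fermat.Agent.FFJ.Model.SharpTargets23.tq_mem_FK n e Mlev hB.mem K₀
  exact geoInputNN_of_explicitModel ℓ hℓ Mlev _
    (Submodule.torsionBy ℤ (JZero Mlev) ((ℓ : ℤ) ^ k)).subtype.toAddMonoidHom
    Subtype.val_injective (fun _ _ => rfl) K₀ (padicPlace ℓ) hA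
    (unramAtPlace_of_unramAt hunr hA) (AK (padicPlace ℓ) K₀) rfl hϖ n e ⟨tq ↥K₀ n e, htmem⟩ rfl
    (hmodel (padicPlace ℓ) hA K₀ hfd le_rfl ϖ hϖ ⟨tq ↥K₀ n e, htmem⟩ rfl)
    (cuspSet (padicPlace ℓ) K₀ cv)
    (Fermat.Agent.FFJ.Model.SmoothOffPointwise72.smoothOffPoly_pointwise hb hnM hℓM hA cv hcv K₀ hfd
      hS ϖ hϖ ⟨tq ↥K₀ n e, htmem⟩ rfl)

/-- **GEO is closed**: the open contract of `Status72`. -/
theorem geoStatement : GeoStatement := by
  intro Mlev _ ℓ _ hℓM h49 k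
  rcases h49 with h4 | h9
  · exact geoInputNN_torsion baseHyp_four Mlev h4 ℓ hℓM _ (cuspExports_four Mlev h4) k
  · exact geoInputNN_torsion baseHyp_nine Mlev h9 ℓ hℓM _ (cuspExports_nine Mlev h9) k

/-- The open contracts of programme FFJ are closed. -/
theorem openContracts : OpenContracts := ⟨geoStatement⟩

end Top

end Fermat.Agent.FFJ.Spec.Geo72
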