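/-
Programme FFJ / MAZ (r = 2, `MarkStmt`), helper75: **`Geo72`'s ladder in continuation-passing form**.

`Geo72.geoInputNN_torsion` obtains the curve data (the unramified field `K₀`, the subalgebra
`B01 ⊆ FK Mlev K₀`, the two charts, `CurveHypR`, the base point, the supply of points) by `obtain`
and feeds them at once to `Geo72.geoInputNN_of_curve_supply`.  Consumers which need SEVERAL
statements about THE SAME curve data (the marks of `J[2^k]` and of all the extensions `E_z`;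
K-FLAT's carry orders) need an eliminator instead:

* `ContAt Mlev K₁ A C` : the type of a continuation which consumes LITERALLY the arguments of
  `Geo72.geoInputNN_of_curve_supply` after `K₁ A` (minus `l hl T f hf hact hA hunr`) and produces `C`;
* `cont_apply` : such a continuation applied to data given through instance binders (the binder list
  of `Geo72.geoInputNN_of_curve_supply` verbatim);
* `elim_of_curveOut`, `elim_of_explicitModel` : `Geo72.geoInputNN_of_curveOut`,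
  `Geo72.geoInputNN_of_explicitModel` with `GeoInputNN l T` replaced by `C`;
* the top (`geo_elim`, `geo_elim_four`, `geo_elim_nine`) is in `FFJ/Spec/GeoElim75.lean`.
-/
import Mathlib
import Fermat.Agent.FFJ.Spec.Geo72

set_option autoImplicit false
set_option linter.style.haveILetI false
set_option linter.unusedSectionVars false
set_option linter.unusedVariables false

noncomputable section

namespace Fermat.Agent.FFJ.Spec.GeoElimRungs75

open scoped TensorProduct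
open ModularCurve Polynomial
open Fermat.Agent.FFJ.Core.ClR35 Fermat.Agent.FFJ.Core.ClRBc35 Fermat.Agent.FFJ.Spec.Spec35
  Fermat.Agent.S19.Shell64 Fermat.Agent.FFJ.Alg.Spec78 Fermat.Agent.FFJ.Alg.SpecLocal78
  Fermat.Agent.FFJ.Alg.SpecNN78
  Fermat.Agent.TW.FF.FlatModel68 Fermat.Agent.FFJ.Order.GeoWire77
  Fermat.Agent.FFJ.Order.GeoWireOne77
open Fermat.Agent.RED.Interface4 (FK)

attribute [local instance 2000] SubalgebraClass.toAlgebra

/-! ### The continuation -/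

/-- **The continuation type at a fixed field `K₁` and place `A`**: a proof of `C` from LITERALLY the
data consumed by `Geo72.geoInputNN_of_curve_supply` (an `O₁ = A ∩ K₁`-subalgebra `B01` of the
function field `FK Mlev K₁`, two charts `A0 A1` with coordinates `t s`, `CurveHypR`, a base point `e`,
`Frac B01 = FK Mlev K₁`, and the supply `S` of `A`-points with infinitely many residues in the
coordinate `s`, all defined over unramified fields). -/
def ContAt (Mlev : ℕ) (K₁ : IntermediateField ℚ Qbar) (A : ValuationSubring Qbar) (C : Prop) :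
    Prop :=
  ∀ (_ : Algebra (OK K₁ A) (FK Mlev K₁)) (_ : IsScalarTower (OK K₁ A) K₁ (FK Mlev K₁))
    (B01 : Subalgebra (OK K₁ A) (FK Mlev K₁)) (A0 A1 : Type) (_ : CommRing A0) (_ : CommRing A1)
    (_ : Algebra (OK K₁ A) A0) (_ : Algebra (OK K₁ A) A1) (_ : Algebra A0 B01) (_ : Algebra A1 B01)
    (_ : IsScalarTower (OK K₁ A) A0 B01) (_ : IsScalarTower (OK K₁ A) A1 B01) (t : A0) (s : A1)
    (_ : IsLocalization.Away t B01) (_ : IsLocalization.Away s B01)
    (_ : Fermat.Agent.FFJ.Pic.ChartDefR35.CurveHypR (OK K₁ A) A0 A1 B01 t s)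
    (_ : B01 →ₐ[OK K₁ A] OK K₁ A)
    (_ : ∀ x : FK Mlev K₁, ∃ a ∈ B01, ∃ b ∈ B01, b ≠ 0 ∧ x * b = a)
    (S : letI := algebraOKA K₁ A; Set (B01 →ₐ[OK K₁ A] ↥A))
    (_ : letI := algebraOKA K₁ A
      ((fun P : B01 →ₐ[OK K₁ A] ↥A =>
        IsLocalRing.residue ↥A (P (algebraMap A1 B01 s))) '' S).Infinite)
    (_ : letI := algebraOKA K₁ A
      ∀ P ∈ S, ∃ K' : IntermediateField ℚ Qbar, FiniteDimensional ℚ K' ∧ K₁ ≤ K' ∧
        UnramAtPlace A K' ∧ ∀ a, ((P a : ↥A) : Qbar) ∈ K'), C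

/-- A continuation applied to data given through instance binders: the binder list is that of
`Geo72.geoInputNN_of_curve_supply` verbatim, so the instances are found exactly as there. -/
theorem cont_apply (Mlev : ℕ) (K₁ : IntermediateField ℚ Qbar) (A : ValuationSubring Qbar)
    [i1 : Algebra (OK K₁ A) (FK Mlev K₁)] [i2 : IsScalarTower (OK K₁ A) K₁ (FK Mlev K₁)]
    (B01 : Subalgebra (OK K₁ A) (FK Mlev K₁))
    {A0 A1 : Type} [i3 : CommRing A0] [i4 : CommRing A1]
    [i5 : Algebra (OK K₁ A) A0] [i6 : Algebra (OK K₁ A) A1] [i7 : Algebra A0 B01]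
    [i8 : Algebra A1 B01]
    [i9 : IsScalarTower (OK K₁ A) A0 B01] [i10 : IsScalarTower (OK K₁ A) A1 B01] {t : A0} {s : A1}
    [i11 : IsLocalization.Away t B01] [i12 : IsLocalization.Away s B01]
    (H : Fermat.Agent.FFJ.Pic.ChartDefR35.CurveHypR (OK K₁ A) A0 A1 B01 t s)
    (e : B01 →ₐ[OK K₁ A] OK K₁ A)
    (hfr : ∀ x : FK Mlev K₁, ∃ a ∈ B01, ∃ b ∈ B01, b ≠ 0 ∧ x * b = a)
    (S : letI := algebraOKA K₁ A; Set (B01 →ₐ[OK K₁ A] ↥A))
    (hSinf : letI := algebraOKA K₁ A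
      ((fun P : B01 →ₐ[OK K₁ A] ↥A =>
        IsLocalRing.residue ↥A (P (algebraMap A1 B01 s))) '' S).Infinite)
    (hSunr : letI := algebraOKA K₁ A
      ∀ P ∈ S, ∃ K' : IntermediateField ℚ Qbar, FiniteDimensional ℚ K' ∧ K₁ ≤ K' ∧
        UnramAtPlace A K' ∧ ∀ a, ((P a : ↥A) : Qbar) ∈ K')
    {C : Prop} (hC : ContAt Mlev K₁ A C) : C :=
  hC i1 i2 B01 A0 A1 i3 i4 i5 i6 i7 i8 i9 i10 t s i11 i12 H e hfr S hSinf hSunr

/-! ### The literal shape of `CurveOut17.curveOut` -/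

section CurveOut

open Fermat.Agent.RED.CORE.CoreIface24 Fermat.Agent.RED.PUR.ChartGeneric22
  Fermat.Agent.RED.PUR.GaussGen8 Fermat.Agent.FFJ.Model.ChartBridge17
  Fermat.Agent.FFJ.Model.MobiusModel17 Fermat.Agent.FFJ.Model.BasePoint17
  Fermat.Agent.FFJ.Model.PolyTransfer39

attribute [local instance] isScalarTower_OE'

set_option synthInstance.maxHeartbeats 400000 in
set_option maxHeartbeats 3200000 in
/-- `Geo72.geoInputNN_of_curveOut` in continuation-passing form (same binders minus `T f hf hact`). -/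
theorem elim_of_curveOut (l : ℕ) (hl : l.Prime) (Mlev : ℕ)
    (K₁ : IntermediateField ℚ Qbar) [FiniteDimensional ℚ K₁] (A : ValuationSubring Qbar)
    (hA : A.LiesOverPrime l) (hunr : UnramAtPlace A K₁)
    (O : ValuationSubring ↥K₁) (hO : O = A.comap (algebraMap ↥K₁ Qbar))
    {π : ↥O} (hu : IsUnif O π) (hE : FK Mlev K₁ ≤ fracField O) (t : ↥(FK Mlev K₁))
    (ht0 : t ≠ 0) (ht1 : t - 1 ≠ 0)
    (hM : TwoChartModel ↥O ↥K₁ ↥(FK Mlev K₁) π (mob t) (chart ↥O (mob t)) (chart ↥O t⁻¹)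
      (gaussVS hu (FK Mlev K₁) hE))
    (H : letI := algebra0 (B0 := chart ↥O (mob t)) hM.t_mem
      letI := algebra1 hM
      haveI := isScalarTower0 (B0 := chart ↥O (mob t)) hM.t_mem
      haveI := isScalarTower1 hM
      haveI := isLocalization_away0 hM
      haveI := isLocalization_away1 hM
      Fermat.Agent.FFJ.Pic.ChartDefR35.CurveHypR ↥O ↥(chart ↥O (mob t)) ↥(chart ↥O t⁻¹)
        ↥(overlap (mob t) (chart ↥O (mob t)) hM.t_mem)
        (⟨mob t, hM.t_mem⟩ : chart ↥O (mob t)) (⟨(mob t)⁻¹, hM.tinv_mem⟩ : chart ↥O t⁻¹))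
    (e : ↥(overlap (mob t) (chart ↥O (mob t)) hM.t_mem) →ₐ[↥O] ↥O)
    (hfr : ∀ x : ↥(FK Mlev K₁), ∃ a ∈ overlap (mob t) (chart ↥O (mob t)) hM.t_mem,
      ∃ b ∈ overlap (mob t) (chart ↥O (mob t)) hM.t_mem, b ≠ 0 ∧ x * b = a)
    (S : Set ↥O)
    (h0 : ∀ x : Ideal (chart ↥O t), x.IsMaximal → algebraMap ↥O (chart ↥O t) π ∈ x →
      (∀ c ∈ S, tch ↥O t - algebraMap ↥O (chart ↥O t) c ∉ x) → LocPoly π t x)
    {C : Prop} (hC : ContAt Mlev K₁ A C) : C := by
  subst hO
  letI := algebra0 (B0 := chart ↥(A.comap (algebraMap ↥K₁ Qbar)) (mob t)) hM.t_mem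
  letI := algebra1 hM
  haveI := isScalarTower0 (B0 := chart ↥(A.comap (algebraMap ↥K₁ Qbar)) (mob t)) hM.t_mem
  haveI := isScalarTower1 hM
  haveI := isLocalization_away0 hM
  haveI := isLocalization_away1 hM
  have hs : (⟨(mob t)⁻¹, hM.tinv_mem⟩ : chart ↥(A.comap (algebraMap ↥K₁ Qbar)) t⁻¹) =
      1 - tch ↥(A.comap (algebraMap ↥K₁ Qbar)) t⁻¹ := Subtype.ext (mob_inv ht0 ht1)
  obtain ⟨S', -, hSinf, hSunr⟩ :=
    Fermat.Agent.FFJ.Model.SupplyBridge64.supply_of_h0 l hl K₁ A hA hunr π hu.max_eq ht0 S h0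
      ↥(chart ↥(A.comap (algebraMap ↥K₁ Qbar)) (mob t))
      ↥(overlap (mob t) (chart ↥(A.comap (algebraMap ↥K₁ Qbar)) (mob t)) hM.t_mem)
      (⟨mob t, hM.t_mem⟩ : chart ↥(A.comap (algebraMap ↥K₁ Qbar)) (mob t))
      (⟨(mob t)⁻¹, hM.tinv_mem⟩ : chart ↥(A.comap (algebraMap ↥K₁ Qbar)) t⁻¹) hs H
  exact cont_apply Mlev K₁ A
    (overlap (mob t) (chart ↥(A.comap (algebraMap ↥K₁ Qbar)) (mob t)) hM.t_mem) H e hfr S' hSinf
    hSunr hC

set_option synthInstance.maxHeartbeats 400000 in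
set_option maxHeartbeats 3200000 in
/-- `Geo72.geoInputNN_of_explicitModel` in continuation-passing form. -/
theorem elim_of_explicitModel (l : ℕ) (hl : l.Prime) (Mlev : ℕ)
    (K₁ : IntermediateField ℚ Qbar) [FiniteDimensional ℚ K₁] (A : ValuationSubring Qbar)
    (hA : A.LiesOverPrime l) (hunr : UnramAtPlace A K₁)
    (O : ValuationSubring ↥K₁) (hO : O = A.comap (algebraMap ↥K₁ Qbar))
    [IsDiscreteValuationRing ↥O] [Finite (Res O)]
    {π : ↥O} (hπ : Irreducible π) (n e : ℕ) [NeZero n] (t : ↥(FK Mlev K₁))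
    (htq : (t : LaurentSeries ↥K₁) = Fermat.Agent.RED.BASE.EtaQuot12.tq ↥K₁ n e)
    (hmodel : Fermat.Agent.FFJ.Model.ModelGeneric87.ExplicitModelAt O (FK Mlev K₁) π t)
    (S : Set ↥O)
    (h0 : Fermat.Agent.FFJ.Model.SmoothOffPoly39.SmoothOffPoly O (FK Mlev K₁) π t S)
    {C : Prop} (hC : ContAt Mlev K₁ A C) : C := by
  obtain ⟨hU, hE, ht, htr, htrK, hfin, hmod⟩ := hmodel.out
  have ht0 : t ≠ 0 := Fermat.Agent.FFJ.Model.CurveAsm17.ne_zero_of_transcendental htrK
  have ht1 : t - 1 ≠ 0 := Fermat.Agent.FFJ.Model.CurveAsm17.sub_one_ne_zero' htrK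
  obtain ⟨hM, H, ⟨e', -⟩, hfr⟩ :=
    Fermat.Agent.FFJ.Model.CurveMin17.curveOut_tq_of_model hπ hU hE n e t htq hmod
  exact elim_of_curveOut l hl Mlev K₁ A hA hunr O hO hU hE t ht0 ht1 hM H e' hfr S
    (fun x hx hπx hS => h0 x hx hπx hS) hC

end CurveOut

end Fermat.Agent.FFJ.Spec.GeoElimRungs75
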