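/-
Programme FFJ / MAZ (r = 2, `MarkStmt`), helper75: **`Geo72.geoInputNN_torsion` as an ELIMINATOR**
(`Geo72`'s ladder in continuation-passing form; the generic rungs `ContAt`, `cont_apply`,
`elim_of_curveOut`, `elim_of_explicitModel` are in `FFJ/Spec/GeoElimRungs75.lean`).

* **`geo_elim`** : at a level `Mlev` divisible by `n ∈ {4, 9}` (`BaseHyp n e`), `ℓ ∤ Mlev`, every
  proposition `C` which follows from LITERALLY the arguments of `Geo72.geoInputNN_of_curve_supply`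
  (at the place `padicPlace ℓ`, for an arbitrary finite `K₁` unramified at that place) holds;
* `geo_elim_contAt`, `geo_elim_four`, `geo_elim_nine` : the same with the continuation stated through
  `GeoElimRungs75.ContAt`;
* `contAt_geoInputNN` : `Geo72.geoInputNN_of_curve_supply` is such a continuation (sanity check).
-/
import Mathlib
import Fermat.Agent.FFJ.Spec.GeoElimRungs75

set_option autoImplicit false
set_option linter.style.haveILetI false
set_option linter.unusedSectionVars false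
set_option linter.unusedVariables false

noncomputable section

namespace Fermat.Agent.FFJ.Spec.GeoElim75

open scoped TensorProduct
open ModularCurve Polynomial
open Fermat.Agent.FFJ.Core.ClR35 Fermat.Agent.FFJ.Core.ClRBc35 Fermat.Agent.FFJ.Spec.Spec35
  Fermat.Agent.S19.Shell64 Fermat.Agent.FFJ.Alg.Spec78 Fermat.Agent.FFJ.Alg.SpecLocal78
  Fermat.Agent.FFJ.Alg.SpecNN78
  Fermat.Agent.TW.FF.FlatModel68 Fermat.Agent.FFJ.Order.GeoWire77
  Fermat.Agent.FFJ.Order.GeoWireOne77 Fermat.Agent.FFJ.Spec.GeoElimRungs75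
open Fermat.Agent.RED.Interface4 (FK)

attribute [local instance 2000] SubalgebraClass.toAlgebra

section Top

open Fermat.Agent.X0 Fermat.Agent.RED.ModelTargets4
open Fermat.Agent.RED.Interface4 Fermat.Agent.RED.BASE Fermat.Agent.RED.BASE.Hauptmodul12
  Fermat.Agent.RED.BASE.MainCusp12 Fermat.Agent.RED.BASE.EtaQuot12
  Fermat.Agent.RED.DESC.NumberFieldDVR27 Fermat.Agent.TW.OrdLocal.PadicPlace97
  Fermat.Agent.FFJ.Spec.Status72
open scoped MatrixGroups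

set_option synthInstance.maxHeartbeats 400000 in
set_option maxHeartbeats 3200000 in
/-- **`Geo72.geoInputNN_torsion` as an eliminator** (continuation stated with `ContAt`): the explicit
unramified field `K₀` of `ModelExplicit87`, the place `padicPlace ℓ`, the two-chart model at the
Hauptmodul, purity off the cusp values — handed to the continuation `hC`. -/
theorem geo_elim_contAt {n e : ℕ} [NeZero n] (hb : BaseHyp n e) (Mlev : ℕ) [NeZero Mlev]
    (hnM : n ∣ Mlev) (ℓ : ℕ) [Fact ℓ.Prime] (hℓM : ¬ ℓ ∣ Mlev)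
    (cv : SL(2, ℤ) → Option Kbar) (hcv : CuspExports n e Mlev cv) {C : Prop}
    (hC : ∀ (K₁ : IntermediateField ℚ Fermat.Agent.FFJ.Alg.Spec78.Qbar) (_ : FiniteDimensional ℚ K₁)
      (_ : UnramAtPlace (padicPlace ℓ) K₁), ContAt Mlev K₁ (padicPlace ℓ) C) : C := by
  have hℓ : ℓ.Prime := Fact.out
  obtain ⟨K₀, hfd, hunr, -, -, hS, hmodel⟩ :=
    Fermat.Agent.FFJ.Model.ModelExplicit87.exists_explicitModel hb hnM hℓM cv hcv
  haveI := hfd
  have hA := padicPlace_liesOverPrime ℓ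
  haveI hdvr : IsDiscreteValuationRing ↥(AK (padicPlace ℓ) K₀) :=
    isDiscreteValuationRing_AK (padicPlace ℓ) K₀ hℓ.ne_zero hA
  haveI hfinres : Finite (Fermat.Agent.RED.PUR.GaussGen8.Res (AK (padicPlace ℓ) K₀)) :=
    finite_residueField_AK (padicPlace ℓ) K₀ hℓ.ne_zero hA
  obtain ⟨ϖ, hϖ⟩ := IsDiscreteValuationRing.exists_irreducible ↥(AK (padicPlace ℓ) K₀)
  have hB := Main12.baseExports hb Mlev hnM
  have htmem : tq ↥K₀ n e ∈ FK Mlev K₀ :=
    Fermat.Agent.FFJ.Model.SharpTargets23.tq_mem_FK n e Mlev hB.mem K₀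
  exact elim_of_explicitModel ℓ hℓ Mlev K₀ (padicPlace ℓ) hA
    (unramAtPlace_of_unramAt hunr hA) (AK (padicPlace ℓ) K₀) rfl hϖ n e ⟨tq ↥K₀ n e, htmem⟩ rfl
    (hmodel (padicPlace ℓ) hA K₀ hfd le_rfl ϖ hϖ ⟨tq ↥K₀ n e, htmem⟩ rfl)
    (cuspSet (padicPlace ℓ) K₀ cv)
    (Fermat.Agent.FFJ.Model.SmoothOffPointwise72.smoothOffPoly_pointwise hb hnM hℓM hA cv hcv K₀ hfd
      hS ϖ hϖ ⟨tq ↥K₀ n e, htmem⟩ rfl)
    (hC K₀ hfd (unramAtPlace_of_unramAt hunr hA))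

/-- **THE ELIMINATOR, continuation spelled out**: at a level `Mlev` divisible by `n ∈ {4, 9}`
(`BaseHyp n e`), `ℓ ∤ Mlev`, every `C` which follows from LITERALLY the arguments of
`Geo72.geoInputNN_of_curve_supply` (at `A := padicPlace ℓ`, for an arbitrary finite `K₁` unramified
at that place) holds. -/
theorem geo_elim {n e : ℕ} [NeZero n] (hb : BaseHyp n e) (Mlev : ℕ) [NeZero Mlev]
    (hnM : n ∣ Mlev) (ℓ : ℕ) [Fact ℓ.Prime] (hℓM : ¬ ℓ ∣ Mlev)
    (cv : SL(2, ℤ) → Option Kbar) (hcv : CuspExports n e Mlev cv) {C : Prop}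
    (hC : ∀ (K₁ : IntermediateField ℚ Fermat.Agent.FFJ.Alg.Spec78.Qbar) (_ : FiniteDimensional ℚ K₁)
      (_ : UnramAtPlace (padicPlace ℓ) K₁)
      (_ : Algebra (OK K₁ (padicPlace ℓ)) (FK Mlev K₁))
      (_ : IsScalarTower (OK K₁ (padicPlace ℓ)) K₁ (FK Mlev K₁))
      (B01 : Subalgebra (OK K₁ (padicPlace ℓ)) (FK Mlev K₁)) (A0 A1 : Type)
      (_ : CommRing A0) (_ : CommRing A1)
      (_ : Algebra (OK K₁ (padicPlace ℓ)) A0) (_ : Algebra (OK K₁ (padicPlace ℓ)) A1)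
      (_ : Algebra A0 B01) (_ : Algebra A1 B01)
      (_ : IsScalarTower (OK K₁ (padicPlace ℓ)) A0 B01)
      (_ : IsScalarTower (OK K₁ (padicPlace ℓ)) A1 B01) (t : A0) (s : A1)
      (_ : IsLocalization.Away t B01) (_ : IsLocalization.Away s B01)
      (_ : Fermat.Agent.FFJ.Pic.ChartDefR35.CurveHypR (OK K₁ (padicPlace ℓ)) A0 A1 B01 t s)
      (_ : B01 →ₐ[OK K₁ (padicPlace ℓ)] OK K₁ (padicPlace ℓ))
      (_ : ∀ x : FK Mlev K₁, ∃ a ∈ B01, ∃ b ∈ B01, b ≠ 0 ∧ x * b = a)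
      (S : letI := algebraOKA K₁ (padicPlace ℓ)
        Set (B01 →ₐ[OK K₁ (padicPlace ℓ)] ↥(padicPlace ℓ)))
      (_ : letI := algebraOKA K₁ (padicPlace ℓ)
        ((fun P : B01 →ₐ[OK K₁ (padicPlace ℓ)] ↥(padicPlace ℓ) =>
          IsLocalRing.residue ↥(padicPlace ℓ) (P (algebraMap A1 B01 s))) '' S).Infinite)
      (_ : letI := algebraOKA K₁ (padicPlace ℓ)
        ∀ P ∈ S, ∃ K' : IntermediateField ℚ Fermat.Agent.FFJ.Alg.Spec78.Qbar, FiniteDimensional ℚ K' ∧ K₁ ≤ K' ∧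
          UnramAtPlace (padicPlace ℓ) K' ∧ ∀ a, ((P a : ↥(padicPlace ℓ)) : Fermat.Agent.FFJ.Alg.Spec78.Qbar) ∈ K'), C) :
    C :=
  geo_elim_contAt hb Mlev hnM ℓ hℓM cv hcv hC

/-- `geo_elim` at `n = 4` (`4 ∣ Mlev`). -/
theorem geo_elim_four (Mlev : ℕ) [NeZero Mlev] (h4 : 4 ∣ Mlev) (ℓ : ℕ) [Fact ℓ.Prime]
    (hℓM : ¬ ℓ ∣ Mlev) {C : Prop}
    (hC : ∀ (K₁ : IntermediateField ℚ Fermat.Agent.FFJ.Alg.Spec78.Qbar) (_ : FiniteDimensional ℚ K₁)
      (_ : UnramAtPlace (padicPlace ℓ) K₁), ContAt Mlev K₁ (padicPlace ℓ) C) : C :=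
  geo_elim_contAt baseHyp_four Mlev h4 ℓ hℓM _ (cuspExports_four Mlev h4) hC

/-- `geo_elim` at `n = 9` (`9 ∣ Mlev`). -/
theorem geo_elim_nine (Mlev : ℕ) [NeZero Mlev] (h9 : 9 ∣ Mlev) (ℓ : ℕ) [Fact ℓ.Prime]
    (hℓM : ¬ ℓ ∣ Mlev) {C : Prop}
    (hC : ∀ (K₁ : IntermediateField ℚ Fermat.Agent.FFJ.Alg.Spec78.Qbar) (_ : FiniteDimensional ℚ K₁)
      (_ : UnramAtPlace (padicPlace ℓ) K₁), ContAt Mlev K₁ (padicPlace ℓ) C) : C :=
  geo_elim_contAt baseHyp_nine Mlev h9 ℓ hℓM _ (cuspExports_nine Mlev h9) hC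

/-- `GeoInputNN` recovered from the eliminator (sanity check: `Geo72.geoInputNN_of_curve_supply` is a
continuation). -/
theorem contAt_geoInputNN (l : ℕ) (hl : l.Prime) (Mlev : ℕ)
    (T : Type) [AddCommGroup T] [Finite T] [DistribMulAction GQ T]
    (f : T →+ JZero Mlev) (hf : Function.Injective f)
    (hact : ∀ (σ : GQ) (m : T), f (σ • m) = σ • f m)
    (K₁ : IntermediateField ℚ Fermat.Agent.FFJ.Alg.Spec78.Qbar) [FiniteDimensional ℚ K₁] (A : ValuationSubring Fermat.Agent.FFJ.Alg.Spec78.Qbar)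
    (hA : A.LiesOverPrime l) (hunr : UnramAtPlace A K₁) :
    ContAt Mlev K₁ A (GeoInputNN l T) := by
  intro i1 i2 B01 A0 A1 i3 i4 i5 i6 i7 i8 i9 i10 t s i11 i12 H e hfr S hSinf hSunr
  exact Geo72.geoInputNN_of_curve_supply l hl Mlev T f hf hact K₁ A hA hunr B01 H e hfr S hSinf
    hSunr

end Top

end Fermat.Agent.FFJ.Spec.GeoElim75
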