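/-
Programme FFJ (S19), chapter PIC, part D, brick (D8) ADM-ASSEMBLY, slice (D8-TOP).  helper4 (declared
backup of helper77, COORD #3 / STATUS 05:05Z).

THE TWO-LEVEL STEP.  Level `O₁ = A ∩ K₁` (`K₁ ⊂ ℚ̄` a number field unramified at the place `A` over
`l`): curve data satisfying `ChartDefR35.CurveHypR`, a base point `e₁`, a finite Galois module `M` with
the BRIDGE data `ι₁ : M → PicZeroR e₁ ℚ̄` (injective, equivariant for `Gal(ℚ̄/K₁)`), the statement
FIB-R, and a SUPPLY `S` of `A`-points of the overlap with infinitely many residues of the coordinate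
`t`, each defined over a number field unramified at `A`.  Conclusion: `SpecNN78.GeoInputNN l M`
(a function order for `M` at the place `A ∩ K'` of a number field `K' ⊇ K₁` unramified at `A`).

Steps: (1) `A`-models of the points `ι₁ m` and their special fibres over `κ(A)` (VAL);
(2) FIB-R over `κ(A)` with the supply reduced mod `𝔪_A` gives points `q_i` and a rank `n`;
(3) `K'` := a number field containing `K₁`, the fields of the chosen points and enough roots of unity
(`ResFieldPlace82`), `O' := A ∩ K'`; (4) level `O'`: tensor curve data (`CurveBcR85`), `rigHom`,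
`LevelIota85.levelHom`; (5) `LevelGood85` + `LevelInst85` carry the rank condition to the level `O'`;
(6) `CoreOneOK37.exists_isFunOrder_OK`.
-/
import Mathlib
import Fermat.Agent.FFJ.Pic.LevelInst85
import Fermat.Agent.FFJ.Pic.LevelGood85
import Fermat.Agent.FFJ.Pic.CurveBcR85
import Fermat.Agent.FFJ.Order.CoreOneOK37
import Fermat.Agent.FFJ.Alg.ResFieldPlace82
import Fermat.Agent.FFJ.Alg.SpecNN78

set_option autoImplicit false
set_option maxHeartbeats 800000
set_option linter.unusedSectionVars false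
set_option linter.style.haveILetI false

open scoped TensorProduct
open scoped Fermat.Agent.JAC.Core.ConstFamily36

noncomputable section

namespace Fermat.Agent.FFJ.Spec.GeoTwoLevel4

open Fermat.Agent.JAC.Core.Defs36 Fermat.Agent.JAC.Core.ConstFamily36
  Fermat.Agent.JAC.Grp.Diag33
  Fermat.Agent.FFJ.Core.ClR35 Fermat.Agent.FFJ.Core.ClRBc35
  Fermat.Agent.FFJ.Pic.ChartDefR35 Fermat.Agent.FFJ.Pic.SpecD35
  Fermat.Agent.FFJ.Pic.BaseEquiv85 Fermat.Agent.FFJ.Pic.LevelIota85 Fermat.Agent.FFJ.Pic.LevelInst85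
  Fermat.Agent.FFJ.Pic.LevelGood85
  Fermat.Agent.TW.FF.FunOrder68 Fermat.Agent.TW.FF.FlatModel68 Fermat.Agent.FFJ.Alg.Spec78
  Fermat.Agent.FFJ.Alg.SpecLocal78 Fermat.Agent.FFJ.Alg.SpecNN78
  Fermat.Agent.FFJ.Order.GeoWire77 Fermat.Agent.FFJ.Order.GeoWireOne77
  Fermat.Agent.FFJ.Order.AdmOne77
open Fermat.Agent.FFJ.Spec.Spec35 (galActR ValSurj ValInj)

/-! ### Two list lemmas -/

/-- Lifting a list along a map, elementwise. -/
theorem exists_list_map_eq {α β γ : Type*} (f : α → γ) (g : β → γ) (l : List β)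
    (h : ∀ x ∈ l, ∃ y, f y = g x) : ∃ L : List α, L.map f = l.map g := by
  induction l with
  | nil => exact ⟨[], rfl⟩
  | cons x l ih =>
    obtain ⟨y, hy⟩ := h x (List.mem_cons_self)
    obtain ⟨L, hL⟩ := ih fun z hz => h z (List.mem_cons_of_mem _ hz)
    exact ⟨y :: L, by rw [List.map_cons, List.map_cons, hy, hL]⟩

/-- The residue field of a valuation subring of an algebraically closed field is algebraically
closed. -/
theorem isAlgClosed_residueField_of_isAlgClosed {L : Type*} [Field L] [IsAlgClosed L]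
    (A : ValuationSubring L) : IsAlgClosed (IsLocalRing.ResidueField A) := by
  apply IsAlgClosed.of_exists_root
  intro p hpm hpirr
  have hsurj : Function.Surjective (IsLocalRing.residue A) := IsLocalRing.residue_surjective
  have hlift : p ∈ Polynomial.lifts (IsLocalRing.residue A) := by
    obtain ⟨q, hq⟩ := Polynomial.map_surjective _ hsurj p
    exact (Polynomial.mem_lifts _).2 ⟨q, hq⟩
  obtain ⟨q, hq, hqdeg, hqm⟩ := Polynomial.lifts_and_natDegree_eq_and_monic hlift hpm
  have hpdeg : p.natDegree ≠ 0 := by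
    intro h0
    have : p = 1 := Polynomial.eq_one_of_monic_natDegree_zero hpm h0
    subst this
    exact not_irreducible_one hpirr
  have hdeg : (q.map (algebraMap A L)).degree ≠ 0 := by
    rw [Polynomial.degree_map_eq_of_injective (FaithfulSMul.algebraMap_injective A L)]
    intro h0
    apply hpdeg
    rw [← hqdeg]
    exact Polynomial.natDegree_eq_of_degree_eq_some h0
  obtain ⟨x, hx⟩ := IsAlgClosed.exists_root (q.map (algebraMap A L)) hdeg
  have hxint : IsIntegral A x := ⟨q, hqm, by rwa [Polynomial.eval₂_eq_eval_map]⟩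
  obtain ⟨a, ha⟩ := (IsIntegrallyClosed.isIntegral_iff (R := A) (K := L)).1 hxint
  refine ⟨IsLocalRing.residue A a, ?_⟩
  have hqa : q.eval a = 0 := by
    apply FaithfulSMul.algebraMap_injective A L
    rw [map_zero, ← Polynomial.eval₂_at_apply, Polynomial.eval₂_eq_eval_map, ha]
    exact hx
  rw [← hq, Polynomial.eval_map, Polynomial.eval₂_at_apply, hqa, map_zero]

/-! ### Step (5): the rank condition at the level `O'` from the rank condition at the level `O₁` -/

section Level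

variable {K₁ K' : IntermediateField ℚ Qbar} (hK : K₁ ≤ K') (A : ValuationSubring Qbar)
  {A0 A1 A01 : Type} [CommRing A0] [CommRing A1] [CommRing A01]
  [Algebra (OK K₁ A) A0] [Algebra (OK K₁ A) A1] [Algebra (OK K₁ A) A01] [Algebra A0 A01]
  [Algebra A1 A01] [IsScalarTower (OK K₁ A) A0 A01] [IsScalarTower (OK K₁ A) A1 A01]
  {t : A0} {s : A1} [IsLocalization.Away t A01] [IsLocalization.Away s A01]

/-- **Step (5).**  If the special fibres of the `A`-models (level `O₁`) of the points `ι₁ m`, twisted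
by the reductions of the `O'`-valued points `P ∈ L`, are good of rank `n`, then the special fibres of
the `A`-models (level `O'`) of the points `levelHom ι₁ m`, twisted by the class `[O(∑ P)]` defined
over `O'`, are good of rank `n`. -/
theorem goodAtRank_level
    (H₁ : CurveHypR (OK K₁ A) A0 A1 A01 t s) (e₁ : A01 →ₐ[OK K₁ A] OK K₁ A)
    {M : Type} [AddCommGroup M]
    (ι₁ : Multiplicative M →* ClR (OK K₁ A) A0 A1 A01 t s Qbar) (n : ℕ) :
    letI := algebraOKOK hK A
    letI := algebraOKA K₁ A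
    letI := algebraOKA K' A
    haveI := isScalarTower_OKA K₁ A
    haveI := isScalarTower_OKA K' A
    haveI := isScalarTower_OKOK_A hK A
    haveI := isScalarTower_OKOK_Qbar hK A
    haveI := isScalarTower_OKOK_residue hK A
    ∀ (L : List (A0 →ₐ[OK K₁ A] OK K' A)),
    (∀ (ξ : ClR (OK K₁ A) A0 A1 A01 t s A) (m : Multiplicative M), ξ ∈ PicZeroR e₁ A →
      bcR (IsScalarTower.toAlgHom (OK K₁ A) A Qbar) ξ = ι₁ m →
      GoodAtRank (IsLocalRing.ResidueField A)
        (bcR (resV (O := OK K₁ A) A) ξ *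
          (L.map fun P => ptClassR (A1 := A1) (A01 := A01) (t := t) (s := s) H₁.hts
            (((Algebra.ofId (OK K' A) (IsLocalRing.ResidueField A)).restrictScalars
              (OK K₁ A)).comp P)).prod) n) →
    ∀ (ξ' : ClR' (OK K₁ A) A0 A1 A01 t s (OK K' A) A) (m : Multiplicative M),
      ξ' ∈ PicZeroR (rigHom (OK K' A) e₁) A →
      bcR (IsScalarTower.toAlgHom (OK K' A) A Qbar) ξ' = levelHom (OK K' A) ι₁ m →
      GoodAtRank (IsLocalRing.ResidueField A)
        (bcR (resV (O := OK K' A) A) ξ' *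
          twist (fun _ : PUnit.{1} => (baseEquiv (OK K₁ A) A0 A1 A01 t s (OK K' A) (OK K' A)).symm
            ((L.map (ptClassR (A1 := A1) (A01 := A01) (t := t) (s := s) H₁.hts)).prod))
            (IsLocalRing.ResidueField A) PUnit.unit) n := by
  letI := algebraOKOK hK A
  letI := algebraOKA K₁ A
  letI := algebraOKA K' A
  haveI := isScalarTower_OKA K₁ A
  haveI := isScalarTower_OKA K' A
  haveI := isScalarTower_OKOK_A hK A
  haveI := isScalarTower_OKOK_Qbar hK A
  haveI := isScalarTower_OKOK_residue hK A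
  intro L hgood ξ' m hξ' hgen
  rw [goodAtRank_twist_baseEquiv e₁ H₁ (IsLocalRing.ResidueField A) _ L n,
    ← baseEquiv_special hK A ξ']
  refine hgood (baseEquiv (OK K₁ A) A0 A1 A01 t s (OK K' A) A ξ') m ?_ ?_
  · exact (baseEquiv_mem_picZeroR (OK K₁ A) A0 A1 A01 t s (OK K' A) A e₁ ξ').mpr hξ'
  · rw [baseEquiv_generic hK A ξ', hgen, baseEquiv_levelHom]

end Level

/-! ### Steps (1)-(4), (6): the two-level theorem -/

/-- Lifting a list along a map, elementwise, keeping a predicate. -/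
theorem exists_list_lift {α β : Type*} (f : α → β) (p : α → Prop) (l : List β)
    (h : ∀ x ∈ l, ∃ y, p y ∧ f y = x) : ∃ L : List α, (∀ y ∈ L, p y) ∧ L.map f = l := by
  induction l with
  | nil => exact ⟨[], fun _ h => absurd h (List.not_mem_nil), rfl⟩
  | cons x l ih =>
    obtain ⟨y, hy, hyx⟩ := h x (List.mem_cons_self)
    obtain ⟨L, hL, hLl⟩ := ih fun z hz => h z (List.mem_cons_of_mem _ hz)
    refine ⟨y :: L, ?_, by rw [List.map_cons, hyx, hLl]⟩
    intro z hz
    rcases List.mem_cons.mp hz with rfl | hz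
    · exact hy
    · exact hL z hz

section Main

variable (A : ValuationSubring Qbar) (K₁ : IntermediateField ℚ Qbar)
  {A0 A1 A01 : Type} [CommRing A0] [CommRing A1] [CommRing A01]
  [Algebra (OK K₁ A) A0] [Algebra (OK K₁ A) A1] [Algebra (OK K₁ A) A01] [Algebra A0 A01]
  [Algebra A1 A01] [IsScalarTower (OK K₁ A) A0 A01] [IsScalarTower (OK K₁ A) A1 A01]
  {t : A0} {s : A1} [IsLocalization.Away t A01] [IsLocalization.Away s A01]

/-- **Step (3a)**: one number field, unramified at `A`, containing `K₁` and the values of finitely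
many supply points. -/
theorem exists_common_field [FiniteDimensional ℚ K₁] (h₁ : UnramAtPlace A K₁)
    (S : letI := algebraOKA K₁ A; Set (A01 →ₐ[OK K₁ A] A))
    (hSK : letI := algebraOKA K₁ A
      ∀ P ∈ S, ∃ K' : IntermediateField ℚ Qbar, FiniteDimensional ℚ K' ∧ K₁ ≤ K' ∧
        UnramAtPlace A K' ∧ ∀ a, ((P a : A) : Qbar) ∈ K')
    (LP : letI := algebraOKA K₁ A; List (A01 →ₐ[OK K₁ A] A))
    (hLP : letI := algebraOKA K₁ A; ∀ P ∈ LP, P ∈ S) :
    letI := algebraOKA K₁ A
    ∃ K'' : IntermediateField ℚ Qbar, FiniteDimensional ℚ K'' ∧ K₁ ≤ K'' ∧ UnramAtPlace A K'' ∧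
      ∀ P ∈ LP, ∀ a, ((P a : A) : Qbar) ∈ K'' := by
  letI := algebraOKA K₁ A
  induction LP with
  | nil => exact ⟨K₁, inferInstance, le_rfl, h₁, fun _ h => absurd h (List.not_mem_nil)⟩
  | cons P LP ih =>
    obtain ⟨Ka, hfa, hKa, hua, hva⟩ := hSK P (hLP P (List.mem_cons_self))
    obtain ⟨Kb, hfb, hKb, hub, hvb⟩ := ih fun Q hQ => hLP Q (List.mem_cons_of_mem _ hQ)
    haveI := hfa
    haveI := hfb
    refine ⟨Ka ⊔ Kb, IntermediateField.finiteDimensional_sup Ka Kb, hKa.trans le_sup_left,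
      Fermat.Agent.FFJ.Alg.UnramPlace92.unramAtPlace_sup hua hub, ?_⟩
    intro Q hQ a
    rcases List.mem_cons.mp hQ with rfl | hQ
    · exact (le_sup_left : Ka ≤ Ka ⊔ Kb) (hva a)
    · exact (le_sup_right : Kb ≤ Ka ⊔ Kb) (hvb Q hQ a)

/-- **(D8-TOP), the two-level theorem.**  CURVE + BRIDGE at the level `O₁ = A ∩ K₁`, FIB-R and the
SUPPLY give `SpecNN78.GeoInputNN`. -/
theorem geoInputNN_of_two_level (l : ℕ) (hl : l.Prime) (hA : A.LiesOverPrime l)
    [FiniteDimensional ℚ K₁] (h₁ : UnramAtPlace A K₁)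
    (H₁ : CurveHypR (OK K₁ A) A0 A1 A01 t s) (e₁ : A01 →ₐ[OK K₁ A] OK K₁ A)
    (M : Type) [AddCommGroup M] [Finite M] [DistribMulAction GQ M]
    (ι₁ : Multiplicative M →* ClR (OK K₁ A) A0 A1 A01 t s Qbar) (hinj : Function.Injective ι₁)
    (hmem : ∀ m, ι₁ m ∈ PicZeroR e₁ Qbar)
    (hequiv : ∀ (σ : Qbar ≃ₐ[K₁] Qbar) (m : M),
      ι₁ (Multiplicative.ofAdd ((σ.restrictScalars ℚ : GQ) • m)) =
        galActR (OK K₁ A) K₁ σ (ι₁ (Multiplicative.ofAdd m)))
    (hFib : FibStatement (OK K₁ A) A0 A1 A01 t s H₁.hts)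
    (S : letI := algebraOKA K₁ A; Set (A01 →ₐ[OK K₁ A] A))
    (hSinf : letI := algebraOKA K₁ A
      ((fun P : A01 →ₐ[OK K₁ A] A => IsLocalRing.residue A (P (algebraMap A0 A01 t))) '' S).Infinite)
    (hSK : letI := algebraOKA K₁ A
      ∀ P ∈ S, ∃ K' : IntermediateField ℚ Qbar, FiniteDimensional ℚ K' ∧ K₁ ≤ K' ∧
        UnramAtPlace A K' ∧ ∀ a, ((P a : A) : Qbar) ∈ K') :
    GeoInputNN l M := by
  classical
  letI := algebraOKA K₁ A
  haveI := isScalarTower_OKA K₁ A
  haveI : IsDiscreteValuationRing (OK K₁ A) :=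
    Fermat.Agent.RED.DESC.NumberFieldDVR27.isDiscreteValuationRing_AK A K₁ hl.ne_zero hA
  haveI := isAlgebraic_OK_Qbar A K₁
  haveI : IsAlgClosed (IsLocalRing.ResidueField A) := isAlgClosed_residueField_of_isAlgClosed A
  have hVS : ValSurj (OK K₁ A) A0 A1 A01 t s e₁ Qbar :=
    Fermat.Agent.FFJ.Val.ValSurj67.valSurj' H₁ e₁ Qbar
  have hVI : ValInj (OK K₁ A) A0 A1 A01 t s e₁ Qbar :=
    Fermat.Agent.FFJ.Val.ValInjR1.valInj' e₁ H₁ (algebraMap_OK_Qbar_injective A K₁)
  -- (1) the `A`-models and their special fibres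
  have hmodel : ∀ m : M, ∃ ξ : ClR (OK K₁ A) A0 A1 A01 t s A, ξ ∈ PicZeroR e₁ A ∧
      bcR (IsScalarTower.toAlgHom (OK K₁ A) A Qbar) ξ = ι₁ (Multiplicative.ofAdd m) := fun m =>
    hVS A (ι₁ (Multiplicative.ofAdd m)) (hmem _)
  choose ξV hξV hξVι using hmodel
  let ξbar : M → ClR (OK K₁ A) A0 A1 A01 t s (IsLocalRing.ResidueField A) := fun m =>
    bcR (resV (O := OK K₁ A) A) (ξV m)
  have hdeg : ∀ m, IsDegZeroR (IsLocalRing.ResidueField A) (ξbar m) := fun m =>
    (Fermat.Agent.FFJ.Order.Order77.picZeroR_bcR (resV (O := OK K₁ A) A) (hξV m)).2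
  -- (2) FIB-R over `κ(A)`
  let S' : Set (A01 →ₐ[OK K₁ A] IsLocalRing.ResidueField A) :=
    (fun P : A01 →ₐ[OK K₁ A] A => (resV (O := OK K₁ A) A).comp P) '' S
  have hS'inf : ((fun q : A01 →ₐ[OK K₁ A] IsLocalRing.ResidueField A =>
      q (algebraMap A0 A01 t)) '' S').Infinite := by
    rw [Set.image_image]
    exact hSinf
  obtain ⟨lq, n, -, hlS, hgf⟩ := hFib (IsLocalRing.ResidueField A) M ξbar hdeg S' hS'inf
  -- the chosen points, lifted to `A`
  obtain ⟨LP, hLPS, hLPq⟩ := exists_list_lift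
    (fun P : A01 →ₐ[OK K₁ A] A => (resV (O := OK K₁ A) A).comp P) (fun P => P ∈ S) lq
    (fun q hq => by
      obtain ⟨P, hP, hPq⟩ := hlS q hq
      exact ⟨P, hP, hPq⟩)
  -- (3) the field `K'`
  obtain ⟨K'', hfd'', hK₁'', hunr'', hval''⟩ := exists_common_field A K₁ h₁ S hSK LP hLPS
  haveI := hfd''
  obtain ⟨K', hfd', hunr', hK''K', -, -, hcardres⟩ :=
    Fermat.Agent.FFJ.Alg.ResFieldPlace82.exists_unramAtPlace_large_resField l hl A hA K'' hunr''
      (Nat.card M)
  haveI := hfd'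
  have hK : K₁ ≤ K' := hK₁''.trans hK''K'
  -- (4) the level `O' = A ∩ K'`
  letI := algebraOKOK hK A
  letI := algebraOKA K' A
  haveI := isScalarTower_OKA K' A
  haveI := isScalarTower_OKOK_A hK A
  haveI := isScalarTower_OKOK_Qbar hK A
  haveI := isScalarTower_OKOK_residue hK A
  haveI := flat_OKOK hK A
  -- the chosen points as `O'`-valued points of `U0`
  obtain ⟨L, hL⟩ := exists_list_map_eq
    (fun P' : A0 →ₐ[OK K₁ A] OK K' A =>
      ((Algebra.ofId (OK K' A) (IsLocalRing.ResidueField A)).restrictScalars (OK K₁ A)).comp P')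
    (fun P : A01 →ₐ[OK K₁ A] A =>
      (resV (O := OK K₁ A) A).comp (P.comp (IsScalarTower.toAlgHom (OK K₁ A) A0 A01))) LP
    (fun P hP => by
      have hv : ∀ a : A0, (((P.comp (IsScalarTower.toAlgHom (OK K₁ A) A0 A01)) a : A) : Qbar) ∈ K' :=
        fun a => hK''K' (hval'' P hP _)
      exact ⟨codRestrictOK hK A (P.comp (IsScalarTower.toAlgHom (OK K₁ A) A0 A01)) hv,
        ofId_comp_codRestrictOK hK A _ hv⟩)
  -- (5) the rank condition at the level `O₁`, for every model
  have hgood₁ : ∀ (ξ : ClR (OK K₁ A) A0 A1 A01 t s A) (m : Multiplicative M), ξ ∈ PicZeroR e₁ A →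
      bcR (IsScalarTower.toAlgHom (OK K₁ A) A Qbar) ξ = ι₁ m →
      GoodAtRank (IsLocalRing.ResidueField A)
        (bcR (resV (O := OK K₁ A) A) ξ *
          (L.map fun P => ptClassR (A1 := A1) (A01 := A01) (t := t) (s := s) H₁.hts
            (((Algebra.ofId (OK K' A) (IsLocalRing.ResidueField A)).restrictScalars
              (OK K₁ A)).comp P)).prod) n := by
    intro ξ m hξ hξm
    have hξeq : ξ = ξV (Multiplicative.toAdd m) :=
      hVI A ξ (ξV (Multiplicative.toAdd m)) hξ (hξV _) (hξm.trans (hξVι _).symm)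
    have hlist : (L.map fun P => ptClassR (A1 := A1) (A01 := A01) (t := t) (s := s) H₁.hts
          (((Algebra.ofId (OK K' A) (IsLocalRing.ResidueField A)).restrictScalars
            (OK K₁ A)).comp P)) =
        lq.map fun q => ptClassR (A1 := A1) (A01 := A01) (t := t) (s := s) H₁.hts
          (q.comp (IsScalarTower.toAlgHom (OK K₁ A) A0 A01)) := by
      have h1 : (L.map fun P => ptClassR (A1 := A1) (A01 := A01) (t := t) (s := s) H₁.hts
          (((Algebra.ofId (OK K' A) (IsLocalRing.ResidueField A)).restrictScalars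
            (OK K₁ A)).comp P)) =
          (L.map (fun P' : A0 →ₐ[OK K₁ A] OK K' A =>
            ((Algebra.ofId (OK K' A) (IsLocalRing.ResidueField A)).restrictScalars
              (OK K₁ A)).comp P')).map
            (ptClassR (A1 := A1) (A01 := A01) (t := t) (s := s) H₁.hts) := by
        rw [List.map_map]
        rfl
      rw [h1, hL, ← hLPq, List.map_map, List.map_map]
      rfl
    rw [hξeq, hlist]
    exact hgf (Multiplicative.toAdd m)
  have hgood' := goodAtRank_level hK A H₁ e₁ ι₁ n L hgood₁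
  -- (6) CORE-ONE at the level `O'`
  obtain ⟨Hs, hHs⟩ := Fermat.Agent.FFJ.Order.CoreOneOK37.exists_isFunOrder_OK K' A l hl.ne_zero M hA
    (OK K' A ⊗[OK K₁ A] A0) (OK K' A ⊗[OK K₁ A] A1) (OK K' A ⊗[OK K₁ A] A01)
    ((1 : OK K' A) ⊗ₜ[OK K₁ A] t) ((1 : OK K' A) ⊗ₜ[OK K₁ A] s)
    (Fermat.Agent.FFJ.Pic.CurveBcR85.curveHypR_bc (OK K₁ A) (OK K' A) H₁)
    (rigHom (OK K' A) e₁) (levelHom (OK K' A) ι₁) (levelHom_injective (OK K' A) hinj)
    (levelHom_mem_picZeroR (OK K' A) e₁ hmem) (levelHom_equivariant A hK ι₁ hequiv)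
    (fun _ : PUnit.{1} => (baseEquiv (OK K₁ A) A0 A1 A01 t s (OK K' A) (OK K' A)).symm
      ((L.map (ptClassR (A1 := A1) (A01 := A01) (t := t) (s := s) H₁.hts)).prod)) n
    (Or.inr hcardres) hgood'
  exact ⟨K', hfd', A, hA, hunr', Hs, hHs⟩

/-- The supply may be measured in the coordinate `s` instead of `t`: `t s = 1` on the overlap, so the
residues of `P t` and of `P s` are inverse to each other. -/
theorem infinite_residues_t_of_s (hts : algebraMap A0 A01 t * algebraMap A1 A01 s = 1)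
    (S : letI := algebraOKA K₁ A; Set (A01 →ₐ[OK K₁ A] A))
    (hSinf : letI := algebraOKA K₁ A
      ((fun P : A01 →ₐ[OK K₁ A] A => IsLocalRing.residue A (P (algebraMap A1 A01 s))) '' S).Infinite) :
    letI := algebraOKA K₁ A
    ((fun P : A01 →ₐ[OK K₁ A] A => IsLocalRing.residue A (P (algebraMap A0 A01 t))) '' S).Infinite := by
  letI := algebraOKA K₁ A
  intro hfin
  apply hSinf
  have himg : ((fun P : A01 →ₐ[OK K₁ A] A => IsLocalRing.residue A (P (algebraMap A1 A01 s))) '' S) =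
      (fun x : IsLocalRing.ResidueField A => x⁻¹) ''
        ((fun P : A01 →ₐ[OK K₁ A] A => IsLocalRing.residue A (P (algebraMap A0 A01 t))) '' S) := by
    rw [Set.image_image]
    refine Set.image_congr fun P _ => ?_
    have h1 : IsLocalRing.residue A (P (algebraMap A0 A01 t)) *
        IsLocalRing.residue A (P (algebraMap A1 A01 s)) = 1 := by
      rw [← map_mul, ← map_mul, hts, map_one, map_one]
    exact eq_inv_of_mul_eq_one_right h1
  rw [himg]
  exact hfin.image _

/-- **(D8-TOP)**, supply measured in the coordinate `s`. -/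
theorem geoInputNN_of_two_level_s (l : ℕ) (hl : l.Prime) (hA : A.LiesOverPrime l)
    [FiniteDimensional ℚ K₁] (h₁ : UnramAtPlace A K₁)
    (H₁ : CurveHypR (OK K₁ A) A0 A1 A01 t s) (e₁ : A01 →ₐ[OK K₁ A] OK K₁ A)
    (M : Type) [AddCommGroup M] [Finite M] [DistribMulAction GQ M]
    (ι₁ : Multiplicative M →* ClR (OK K₁ A) A0 A1 A01 t s Qbar) (hinj : Function.Injective ι₁)
    (hmem : ∀ m, ι₁ m ∈ PicZeroR e₁ Qbar)
    (hequiv : ∀ (σ : Qbar ≃ₐ[K₁] Qbar) (m : M),
      ι₁ (Multiplicative.ofAdd ((σ.restrictScalars ℚ : GQ) • m)) =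
        galActR (OK K₁ A) K₁ σ (ι₁ (Multiplicative.ofAdd m)))
    (hFib : FibStatement (OK K₁ A) A0 A1 A01 t s H₁.hts)
    (S : letI := algebraOKA K₁ A; Set (A01 →ₐ[OK K₁ A] A))
    (hSinf : letI := algebraOKA K₁ A
      ((fun P : A01 →ₐ[OK K₁ A] A => IsLocalRing.residue A (P (algebraMap A1 A01 s))) '' S).Infinite)
    (hSK : letI := algebraOKA K₁ A
      ∀ P ∈ S, ∃ K' : IntermediateField ℚ Qbar, FiniteDimensional ℚ K' ∧ K₁ ≤ K' ∧
        UnramAtPlace A K' ∧ ∀ a, ((P a : A) : Qbar) ∈ K') :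
    GeoInputNN l M :=
  geoInputNN_of_two_level A K₁ l hl hA h₁ H₁ e₁ M ι₁ hinj hmem hequiv hFib S
    (infinite_residues_t_of_s A K₁ H₁.hts S hSinf) hSK

end Main

end Fermat.Agent.FFJ.Spec.GeoTwoLevel4
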