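/-
Programme FFJ (S19), chapter PIC, export for programme MAZ (marks at the prime `2`).  Owner: helper37.

**THE TWO-LEVEL STEP WITH THE CONGRUENCES OF THE POINTS.**

`GeoTwoLevel77.geoInputNN_of_two_level(_s)` produces a function order `Hs` for `M` over `O' = A ∩ K'`
from curve + bridge data at the level `O₁ = A ∩ K₁`.  Here the same order is produced together with
the description of the congruences of its points modulo the maximal ideal of `A`, in terms of the
curve at the level `O₁` (where the bridge lives):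

  `m ≡ m'`  iff  the `A`-models of `ι₁ m`, `ι₁ m'` (over the level-`O₁` curve) have the same special
  fibre over `κ(A)`

(`CongSpecAt e₁ ι₁ A Hs`).  Proof: CORE-ONE with congruences at the level `O'`
(`CoreOneCong37.exists_isFunOrder_of_goodAtRank_cong`) and the compatibility of `baseEquiv` with
generic and special fibres (`LevelInst85.baseEquiv_generic`, `baseEquiv_special`).
-/
import Mathlib
import Fermat.Agent.FFJ.Spec.GeoTwoLevel77
import Fermat.Agent.FFJ.Pic.CoreOneCong37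

set_option autoImplicit false
set_option linter.style.haveILetI false
set_option linter.unusedSectionVars false
set_option maxHeartbeats 2000000

noncomputable section

namespace Fermat.Agent.FFJ.Spec.GeoTwoLevelCong37

open scoped TensorProduct
open scoped Fermat.Agent.JAC.Core.ConstFamily36
open Fermat.Agent.JAC.Core.Defs36 Fermat.Agent.JAC.Core.ConstFamily36 Fermat.Agent.JAC.Grp.Diag33
  Fermat.Agent.FFJ.Core.ClR35 Fermat.Agent.FFJ.Core.ClRBc35 Fermat.Agent.TW.FF.FunOrder68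
  Fermat.Agent.FFJ.Spec.Spec35 Fermat.Agent.S19.Shell64 Fermat.Agent.FFJ.Alg.Spec78
  Fermat.Agent.FFJ.Alg.SpecLocal78 Fermat.Agent.FFJ.Alg.SpecNN78
  Fermat.Agent.TW.FF.FlatModel68 Fermat.Agent.FFJ.Order.GeoWire77 Fermat.Agent.FFJ.Order.AdmOne77
  Fermat.Agent.FFJ.Order.GeoWireOne77 Fermat.Agent.FFJ.Order.ValConj77
  Fermat.Agent.FFJ.Pic.SpecD35 Fermat.Agent.FFJ.Pic.BaseEquiv85 Fermat.Agent.FFJ.Pic.LevelIota85
  Fermat.Agent.FFJ.Pic.LevelInst85 Fermat.Agent.FFJ.Spec.GeoTwoLevel77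

/-- **The congruences of a set of functions on `M` at the place `A` are the specialisations of the
`A`-models over the level-`O₁` curve.** -/
def CongSpecAt (K₁ : IntermediateField ℚ Qbar) (A : ValuationSubring Qbar)
    {A0 A1 A01 : Type} [CommRing A0] [CommRing A1] [CommRing A01]
    [Algebra (OK K₁ A) A0] [Algebra (OK K₁ A) A1] [Algebra (OK K₁ A) A01] [Algebra A0 A01]
    [Algebra A1 A01] [IsScalarTower (OK K₁ A) A0 A01] [IsScalarTower (OK K₁ A) A1 A01]
    {t : A0} {s : A1} [IsLocalization.Away t A01] [IsLocalization.Away s A01]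
    (e₁ : A01 →ₐ[OK K₁ A] OK K₁ A) {M : Type} [AddCommGroup M]
    (ι₁ : Multiplicative M →* ClR (OK K₁ A) A0 A1 A01 t s Qbar) (Hs : Set (M → Qbar)) : Prop :=
  letI := algebraOKA K₁ A
  haveI := isScalarTower_OKA K₁ A
  ∀ (m m' : M) (ξ ξ' : ClR (OK K₁ A) A0 A1 A01 t s A), ξ ∈ PicZeroR e₁ A → ξ' ∈ PicZeroR e₁ A →
    bcR (IsScalarTower.toAlgHom (OK K₁ A) A Qbar) ξ = ι₁ (Multiplicative.ofAdd m) →
    bcR (IsScalarTower.toAlgHom (OK K₁ A) A Qbar) ξ' = ι₁ (Multiplicative.ofAdd m') →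
    ((∀ h ∈ Hs, h m - h m' ∈ A.nonunits) ↔
      bcR (resV (O := OK K₁ A) A) ξ = bcR (resV (O := OK K₁ A) A) ξ')

/-- **(D8-TOP) with congruences**: `GeoTwoLevel77.geoInputNN_of_two_level` (same binders) with the
function order kept, together with the congruences of its points at `A`. -/
theorem geoInputNN_of_two_level_cong (l : ℕ) (hl : l.Prime) (M : Type) [AddCommGroup M] [Finite M]
    [DistribMulAction GQ M]
    (K₁ : IntermediateField ℚ Qbar) [FiniteDimensional ℚ K₁]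
    (A : ValuationSubring Qbar) (hA : A.LiesOverPrime l) (hunr : UnramAtPlace A K₁)
    (A0 A1 A01 : Type) [CommRing A0] [CommRing A1] [CommRing A01]
    [Algebra (OK K₁ A) A0] [Algebra (OK K₁ A) A1] [Algebra (OK K₁ A) A01] [Algebra A0 A01]
    [Algebra A1 A01] [IsScalarTower (OK K₁ A) A0 A01] [IsScalarTower (OK K₁ A) A1 A01]
    (t : A0) (s : A1) [IsLocalization.Away t A01] [IsLocalization.Away s A01]
    (H₁ : Fermat.Agent.FFJ.Pic.ChartDefR35.CurveHypR (OK K₁ A) A0 A1 A01 t s)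
    (e₁ : A01 →ₐ[OK K₁ A] OK K₁ A)
    (ι₁ : Multiplicative M →* ClR (OK K₁ A) A0 A1 A01 t s Qbar) (hinj : Function.Injective ι₁)
    (hmem : ∀ m, ι₁ m ∈ PicZeroR e₁ Qbar)
    (hequiv : ∀ (σ : Qbar ≃ₐ[K₁] Qbar) (m : M),
      ι₁ (Multiplicative.ofAdd ((σ.restrictScalars ℚ : GQ) • m)) =
        galActR (OK K₁ A) K₁ σ (ι₁ (Multiplicative.ofAdd m)))
    (hFib : FibStatement (OK K₁ A) A0 A1 A01 t s H₁.hts)
    (S : letI := algebraOKA K₁ A; Set (A01 →ₐ[OK K₁ A] A))
    (hSinf : letI := algebraOKA K₁ A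
      ((fun P : A01 →ₐ[OK K₁ A] A => IsLocalRing.residue A (P (algebraMap A0 A01 t))) '' S).Infinite)
    (hSunr : letI := algebraOKA K₁ A
      ∀ P ∈ S, ∃ K' : IntermediateField ℚ Qbar, FiniteDimensional ℚ K' ∧ K₁ ≤ K' ∧
        UnramAtPlace A K' ∧ ∀ a, ((P a : A) : Qbar) ∈ K') :
    ∃ (K' : IntermediateField ℚ Qbar) (_ : FiniteDimensional ℚ K'), K₁ ≤ K' ∧ UnramAtPlace A K' ∧
      ∃ Hs : Subalgebra (OK K' A) (M → Qbar),
        @IsFunOrder (OK K' A) K' Qbar M _ _ _ _ _ _ (resMulAction K' M) Hs ∧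
          CongSpecAt K₁ A e₁ ι₁ (Hs : Set (M → Qbar)) := by
  letI := algebraOKA K₁ A
  haveI := isScalarTower_OKA K₁ A
  haveI : IsDiscreteValuationRing (OK K₁ A) :=
    Fermat.Agent.RED.DESC.NumberFieldDVR27.isDiscreteValuationRing_AK A K₁ hl.ne_zero hA
  haveI := isAlgebraic_OK_Qbar A K₁
  haveI : IsAlgClosed (IsLocalRing.ResidueField A) :=
    Fermat.Agent.ES.KRON.KronInst10.isAlgClosed_residueField A
  have hinjO := algebraMap_OK_Qbar_injective A K₁
  -- (1) the `A`-models of the points and their special fibres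
  have hmod : ∀ m : M, ∃ ξ : ClR (OK K₁ A) A0 A1 A01 t s A, ξ ∈ PicZeroR e₁ A ∧
      bcR (IsScalarTower.toAlgHom (OK K₁ A) A Qbar) ξ = ι₁ (Multiplicative.ofAdd m) := fun m =>
    (Fermat.Agent.FFJ.Val.ValInjR1.existsUnique_extension e₁ H₁ hinjO A
      (ι₁ (Multiplicative.ofAdd m)) (hmem _)).exists
  choose ξ_ hξ_ hξι using hmod
  have hdeg : ∀ m, IsDegZeroR (IsLocalRing.ResidueField A) (bcR (resV A) (ξ_ m)) := fun m =>
    isDegZeroR_bcR _ _ (hξ_ m).2
  -- (2) FIB-R with the reductions of the supply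
  have hS' : ((fun q : A01 →ₐ[OK K₁ A] IsLocalRing.ResidueField A => q (algebraMap A0 A01 t)) ''
      ((fun P : A01 →ₐ[OK K₁ A] A => (resV A).comp P) '' S)).Infinite := by
    rw [Set.image_image]
    exact hSinf
  obtain ⟨lq, n, -, hlS, hgood⟩ := hFib (IsLocalRing.ResidueField A) M
    (fun m => bcR (resV A) (ξ_ m)) hdeg _ hS'
  -- (3) the field of definition of the chosen points, with a large residue field
  obtain ⟨K'', hfd'', hle'', hu'', hR''⟩ := exists_field_of_list A K₁ hunr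
    (fun (q : A01 →ₐ[OK K₁ A] IsLocalRing.ResidueField A) K => ∃ P : A01 →ₐ[OK K₁ A] A,
      (resV A).comp P = q ∧ ∀ a, ((P a : A) : Qbar) ∈ K)
    (fun q K K' hKK' ⟨P, hP, hPK⟩ => ⟨P, hP, fun a => hKK' (hPK a)⟩) lq
    (fun q hq => by
      obtain ⟨P, hPS, hPq⟩ := hlS q hq
      obtain ⟨K', hfd, hle, hu, hv⟩ := hSunr P hPS
      exact ⟨K', hfd, hle, hu, P, hPq, hv⟩)
  haveI := hfd''
  obtain ⟨K', hfd', hu', hle', -, hfin', hcard'⟩ :=
    Fermat.Agent.FFJ.Alg.ResFieldPlace82.exists_unramAtPlace_large_resField l hl A hA K'' hu''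
      (Nat.card M)
  have hK : K₁ ≤ K' := hle''.trans hle'
  -- (4) the level `O' = A ∩ K'`
  letI := algebraOKOK hK A
  letI := algebraOKA K' A
  haveI := isScalarTower_OKA K' A
  haveI := isScalarTower_OKOK_A hK A
  haveI := isScalarTower_OKOK_Qbar hK A
  haveI := isScalarTower_OKOK_residue hK A
  haveI := flat_OKOK hK A
  haveI := hfd'
  haveI : IsDiscreteValuationRing (OK K' A) :=
    Fermat.Agent.RED.DESC.NumberFieldDVR27.isDiscreteValuationRing_AK A K' hl.ne_zero hA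
  haveI := isAlgebraic_OK_Qbar A K'
  haveI := isGalois_K_Qbar K'
  letI : MulAction (Qbar ≃ₐ[K'] Qbar) M := resMulAction K' M
  have H' := Fermat.Agent.FFJ.Pic.CurveBcR85.curveHypR_bc (OK K₁ A) (OK K' A) H₁
  -- the chosen points as `O'`-valued points of `U0`
  obtain ⟨L, hL⟩ := exists_list_map_eq
    (fun q : A01 →ₐ[OK K₁ A] IsLocalRing.ResidueField A =>
      ptClassR (A1 := A1) (A01 := A01) (t := t) (s := s) H₁.hts
        (q.comp (IsScalarTower.toAlgHom (OK K₁ A) A0 A01)))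
    (fun P : A0 →ₐ[OK K₁ A] OK K' A =>
      ptClassR (A1 := A1) (A01 := A01) (t := t) (s := s) H₁.hts
        (((Algebra.ofId (OK K' A) (IsLocalRing.ResidueField A)).restrictScalars (OK K₁ A)).comp P))
    lq (fun q hq => by
      obtain ⟨P, hPq, hPK⟩ := hR'' q hq
      have hPK' : ∀ a, ((P a : A) : Qbar) ∈ K' := fun a => hle' (hPK a)
      refine ⟨(codRestrictOK hK A P hPK').comp (IsScalarTower.toAlgHom (OK K₁ A) A0 A01), ?_⟩
      show ptClassR H₁.hts _ = ptClassR H₁.hts _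
      rw [← AlgHom.comp_assoc, ofId_comp_codRestrictOK hK A P hPK', hPq])
  -- (5) the rank condition of CORE-ONE at the level `O'`
  have hgood' : ∀ (ξ' : ClR' (OK K₁ A) A0 A1 A01 t s (OK K' A) A) (m : Multiplicative M),
      ξ' ∈ PicZeroR (rigHom (OK K' A) e₁) A →
      bcR (IsScalarTower.toAlgHom (OK K' A) A Qbar) ξ' = levelHom (OK K' A) ι₁ m →
      GoodAtRank (IsLocalRing.ResidueField A)
        (bcR (Fermat.Agent.FFJ.Order.AdmOne77.resV A) ξ' *
          Fermat.Agent.FFJ.Pic.ChartDefR35.twist (fun _ : PUnit.{1} => (baseEquiv (OK K₁ A) A0 A1 A01 t s (OK K' A) (OK K' A)).symm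
            ((L.map (ptClassR (A1 := A1) (A01 := A01) (t := t) (s := s) H₁.hts)).prod))
            (IsLocalRing.ResidueField A) PUnit.unit) n := by
    intro ξ' m hξ' hξ'm
    rw [Fermat.Agent.FFJ.Pic.LevelGood85.goodAtRank_twist_baseEquiv e₁ H₁, hL,
      ← baseEquiv_special hK A ξ']
    have hmodel : baseEquiv (OK K₁ A) A0 A1 A01 t s (OK K' A) A ξ' =
        ξ_ (Multiplicative.toAdd m) := by
      refine Fermat.Agent.FFJ.Val.ValInjR1.valInj' e₁ H₁ hinjO A _ _ ?_ (hξ_ _) ?_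
      · exact (baseEquiv_mem_picZeroR (OK K₁ A) A0 A1 A01 t s (OK K' A) A e₁ ξ').mpr hξ'
      · rw [baseEquiv_generic hK A ξ', hξ'm, baseEquiv_levelHom, hξι]
        rfl
    rw [hmodel]
    exact hgood (Multiplicative.toAdd m)
  -- (6) CORE-ONE with congruences
  obtain ⟨Hs, hHs, hcong⟩ := Fermat.Agent.FFJ.Pic.CoreOneCong37.exists_isFunOrder_of_goodAtRank_cong K'
    (algebraMap_OK_Qbar_injective A K') H' (rigHom (OK K' A) e₁) M
    (levelHom (OK K' A) ι₁) (levelHom_injective (OK K' A) hinj)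
    (levelHom_mem_picZeroR (OK K' A) e₁ hmem) (levelHom_equivariant A hK ι₁ hequiv) A
    (liesOverBase_OKA K' A)
    (fun _ => (baseEquiv (OK K₁ A) A0 A1 A01 t s (OK K' A) (OK K' A)).symm
      ((L.map (ptClassR (A1 := A1) (A01 := A01) (t := t) (s := s) H₁.hts)).prod)) n
    (Or.inr hcard') hgood'
  refine ⟨K', hfd', hK, hu', Hs, hHs, ?_⟩
  -- (7) the congruences, pulled back to the level `O₁`
  intro m m' ξ ξ' hξ hξ' hm hm'
  set η := (baseEquiv (OK K₁ A) A0 A1 A01 t s (OK K' A) A).symm ξ with hη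
  set η' := (baseEquiv (OK K₁ A) A0 A1 A01 t s (OK K' A) A).symm ξ' with hη'
  have e1 : baseEquiv (OK K₁ A) A0 A1 A01 t s (OK K' A) A η = ξ := by
    rw [hη]; exact MulEquiv.apply_symm_apply _ _
  have e1' : baseEquiv (OK K₁ A) A0 A1 A01 t s (OK K' A) A η' = ξ' := by
    rw [hη']; exact MulEquiv.apply_symm_apply _ _
  have hηmem : η ∈ PicZeroR (rigHom (OK K' A) e₁) A :=
    (baseEquiv_mem_picZeroR (OK K₁ A) A0 A1 A01 t s (OK K' A) A e₁ η).mp (by rw [e1]; exact hξ)
  have hη'mem : η' ∈ PicZeroR (rigHom (OK K' A) e₁) A :=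
    (baseEquiv_mem_picZeroR (OK K₁ A) A0 A1 A01 t s (OK K' A) A e₁ η').mp (by rw [e1']; exact hξ')
  have hgen : bcR (IsScalarTower.toAlgHom (OK K' A) A Qbar) η =
      levelHom (OK K' A) ι₁ (Multiplicative.ofAdd m) := by
    apply (baseEquiv (OK K₁ A) A0 A1 A01 t s (OK K' A) Qbar).injective
    rw [← baseEquiv_generic hK A η, e1, baseEquiv_levelHom, hm]
  have hgen' : bcR (IsScalarTower.toAlgHom (OK K' A) A Qbar) η' =
      levelHom (OK K' A) ι₁ (Multiplicative.ofAdd m') := by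
    apply (baseEquiv (OK K₁ A) A0 A1 A01 t s (OK K' A) Qbar).injective
    rw [← baseEquiv_generic hK A η', e1', baseEquiv_levelHom, hm']
  have h1 := hcong A m m' η η' hηmem hη'mem hgen hgen'
  have h2 : (∀ h ∈ (Hs : Set (M → Qbar)), h m - h m' ∈ A.nonunits) ↔
      ∀ h ∈ Hs, h m - h m' ∈ A.nonunits := Iff.rfl
  rw [h2, h1, ← e1, ← e1', baseEquiv_special hK A η, baseEquiv_special hK A η']
  exact ((baseEquiv (OK K₁ A) A0 A1 A01 t s (OK K' A)
    (IsLocalRing.ResidueField A)).injective.eq_iff).symm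

/-- **(D8-TOP) with congruences, `s`-coordinate form**: the same with the supply having infinitely many residues of the
coordinate `s` of the second chart (`t · s = 1` on the overlap, so the residues of `t` are the inverses
of the residues of `s`). -/
theorem geoInputNN_of_two_level_s_cong (l : ℕ) (hl : l.Prime) (M : Type) [AddCommGroup M] [Finite M]
    [DistribMulAction GQ M]
    (K₁ : IntermediateField ℚ Qbar) [FiniteDimensional ℚ K₁]
    (A : ValuationSubring Qbar) (hA : A.LiesOverPrime l) (hunr : UnramAtPlace A K₁)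
    (A0 A1 A01 : Type) [CommRing A0] [CommRing A1] [CommRing A01]
    [Algebra (OK K₁ A) A0] [Algebra (OK K₁ A) A1] [Algebra (OK K₁ A) A01] [Algebra A0 A01]
    [Algebra A1 A01] [IsScalarTower (OK K₁ A) A0 A01] [IsScalarTower (OK K₁ A) A1 A01]
    (t : A0) (s : A1) [IsLocalization.Away t A01] [IsLocalization.Away s A01]
    (H₁ : Fermat.Agent.FFJ.Pic.ChartDefR35.CurveHypR (OK K₁ A) A0 A1 A01 t s)
    (e₁ : A01 →ₐ[OK K₁ A] OK K₁ A)
    (ι₁ : Multiplicative M →* ClR (OK K₁ A) A0 A1 A01 t s Qbar) (hinj : Function.Injective ι₁)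
    (hmem : ∀ m, ι₁ m ∈ PicZeroR e₁ Qbar)
    (hequiv : ∀ (σ : Qbar ≃ₐ[K₁] Qbar) (m : M),
      ι₁ (Multiplicative.ofAdd ((σ.restrictScalars ℚ : GQ) • m)) =
        galActR (OK K₁ A) K₁ σ (ι₁ (Multiplicative.ofAdd m)))
    (hFib : FibStatement (OK K₁ A) A0 A1 A01 t s H₁.hts)
    (S : letI := algebraOKA K₁ A; Set (A01 →ₐ[OK K₁ A] A))
    (hSinf : letI := algebraOKA K₁ A
      ((fun P : A01 →ₐ[OK K₁ A] A => IsLocalRing.residue A (P (algebraMap A1 A01 s))) '' S).Infinite)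
    (hSunr : letI := algebraOKA K₁ A
      ∀ P ∈ S, ∃ K' : IntermediateField ℚ Qbar, FiniteDimensional ℚ K' ∧ K₁ ≤ K' ∧
        UnramAtPlace A K' ∧ ∀ a, ((P a : A) : Qbar) ∈ K') :
    ∃ (K' : IntermediateField ℚ Qbar) (_ : FiniteDimensional ℚ K'), K₁ ≤ K' ∧ UnramAtPlace A K' ∧
      ∃ Hs : Subalgebra (OK K' A) (M → Qbar),
        @IsFunOrder (OK K' A) K' Qbar M _ _ _ _ _ _ (resMulAction K' M) Hs ∧
          CongSpecAt K₁ A e₁ ι₁ (Hs : Set (M → Qbar)) := by
  letI := algebraOKA K₁ A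
  refine geoInputNN_of_two_level_cong l hl M K₁ A hA hunr A0 A1 A01 t s H₁ e₁ ι₁ hinj hmem hequiv hFib S
    ?_ hSunr
  have hinv : ∀ P : A01 →ₐ[OK K₁ A] A, IsLocalRing.residue A (P (algebraMap A0 A01 t)) =
      (IsLocalRing.residue A (P (algebraMap A1 A01 s)))⁻¹ := fun P => by
    refine eq_inv_of_mul_eq_one_left ?_
    rw [← map_mul, ← map_mul, H₁.hts, map_one, map_one]
  have himg : (fun P : A01 →ₐ[OK K₁ A] A => IsLocalRing.residue A (P (algebraMap A0 A01 t))) '' S =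
      (fun x : IsLocalRing.ResidueField A => x⁻¹) ''
        ((fun P : A01 →ₐ[OK K₁ A] A => IsLocalRing.residue A (P (algebraMap A1 A01 s))) '' S) := by
    rw [Set.image_image]
    exact Set.image_congr fun P _ => hinv P
  rw [himg]
  exact hSinf.image (inv_injective.injOn)

/-- the plain `GeoInputNN` of `GeoTwoLevel77`, recovered. -/
theorem geoInputNN_of_cong {l : ℕ} {M : Type} [AddCommGroup M] [DistribMulAction GQ M]
    {A : ValuationSubring Qbar} (hA : A.LiesOverPrime l)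
    (h : ∃ (K' : IntermediateField ℚ Qbar) (_ : FiniteDimensional ℚ K'), UnramAtPlace A K' ∧
      ∃ Hs : Subalgebra (OK K' A) (M → Qbar),
        @IsFunOrder (OK K' A) K' Qbar M _ _ _ _ _ _ (resMulAction K' M) Hs) :
    GeoInputNN l M := by
  obtain ⟨K', hfd', hu', Hs, hHs⟩ := h
  exact ⟨K', hfd', A, hA, hu', Hs, hHs⟩

end Fermat.Agent.FFJ.Spec.GeoTwoLevelCong37
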