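/-
Programme FFJ (S19), chapter PIC, slice (D8-TOP), adapter to the exit shape of (D3) SUPPLY.
Owner: helper77.

`Supply39.supply` delivers a SEQUENCE of points `P i : A01 →ₐ[O₁] ℚ̄` of the overlap with values in the
valuation ring `A`, each with values in a finite extension of `K₁` unramified at `A`, whose
`s`-coordinates differ pairwise by units of `A`.  `geoInputNN_of_two_level_seq` consumes exactly this
shape (`GeoTwoLevel77.geoInputNN_of_two_level_s` wants a set of `A`-valued points with infinitely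
many residues of the `s`-coordinate).
-/
import Mathlib
import Fermat.Agent.FFJ.Spec.GeoTwoLevel77

set_option autoImplicit false
set_option linter.style.haveILetI false
set_option linter.unusedSectionVars false
set_option maxHeartbeats 400000

noncomputable section

namespace Fermat.Agent.FFJ.Spec.GeoTwoLevelSeq77

open scoped TensorProduct
open Fermat.Agent.JAC.Core.Defs36 Fermat.Agent.JAC.Grp.Diag33
  Fermat.Agent.FFJ.Core.ClR35 Fermat.Agent.FFJ.Core.ClRBc35
  Fermat.Agent.FFJ.Spec.Spec35 Fermat.Agent.S19.Shell64 Fermat.Agent.FFJ.Alg.Spec78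
  Fermat.Agent.FFJ.Alg.SpecLocal78 Fermat.Agent.FFJ.Alg.SpecNN78
  Fermat.Agent.TW.FF.FlatModel68 Fermat.Agent.FFJ.Order.GeoWire77
  Fermat.Agent.FFJ.Order.GeoWireOne77 Fermat.Agent.FFJ.Pic.SpecD35
  Fermat.Agent.FFJ.Spec.GeoTwoLevel77

section CodRestrict

variable (K : IntermediateField ℚ Qbar) (A : ValuationSubring Qbar)
  {R : Type} [CommRing R] [Algebra (OK K A) R]

/-- An `O`-algebra map `R → ℚ̄` with values in `A` as a map `R → A` (`O = A ∩ K`, the `O`-algebra
structure of `A` being `GeoWireOne77.algebraOKA`). -/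
def codRestrictA (P : R →ₐ[OK K A] Qbar) (h : ∀ z, P z ∈ A) :
    letI := algebraOKA K A
    R →ₐ[OK K A] A :=
  letI := algebraOKA K A
  { toFun := fun z => ⟨P z, h z⟩
    map_one' := Subtype.ext (map_one P)
    map_mul' := fun a b => Subtype.ext (map_mul P a b)
    map_zero' := Subtype.ext (map_zero P)
    map_add' := fun a b => Subtype.ext (map_add P a b)
    commutes' := fun c => Subtype.ext (P.commutes c) }

theorem coe_codRestrictA (P : R →ₐ[OK K A] Qbar) (h : ∀ z, P z ∈ A) (z : R) :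
    letI := algebraOKA K A
    ((codRestrictA K A P h z : A) : Qbar) = P z := rfl

end CodRestrict

/-- **(D8-TOP), sequence form** (the exit shape of `Supply39.supply`). -/
theorem geoInputNN_of_two_level_seq (l : ℕ) (hl : l.Prime) (M : Type) [AddCommGroup M] [Finite M]
    [DistribMulAction GQ M]
    (K₁ : IntermediateField ℚ Qbar) [FiniteDimensional ℚ K₁]
    (A : ValuationSubring Qbar) (hA : A.LiesOverPrime l) (hunr : UnramAtPlace A K₁)
    (A0 A1 A01 : Type) [CommRing A0] [CommRing A1] [CommRing A01]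
    [Algebra (OK K₁ A) A0] [Algebra (OK K₁ A) A1] [Algebra (OK K₁ A) A01] [Algebra A0 A01]
    [Algebra A1 A01] [IsScalarTower (OK K₁ A) A0 A01] [IsScalarTower (OK K₁ A) A1 A01]
    (t : A0) (s : A1) [IsLocalization.Away t A01] [IsLocalization.Away s A01]
    (H₁ : Fermat.Agent.FFJ.Pic.ChartDefR35.CurveHypR (OK K₁ A) A0 A1 A01 t s)
    (e₁ : A01 →ₐ[OK K₁ A] OK K₁ A)
    (ι₁ : Multiplicative M →* ClR (OK K₁ A) A0 A1 A01 t s Qbar) (hinj : Function.Injective ι₁)
    (hmem : ∀ m, ι₁ m ∈ PicZeroR e₁ Qbar)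
    (hequiv : ∀ (σ : Qbar ≃ₐ[K₁] Qbar) (m : M),
      ι₁ (Multiplicative.ofAdd ((σ.restrictScalars ℚ : GQ) • m)) =
        galActR (OK K₁ A) K₁ σ (ι₁ (Multiplicative.ofAdd m)))
    (hFib : FibStatement (OK K₁ A) A0 A1 A01 t s H₁.hts)
    (P : ℕ → (A01 →ₐ[OK K₁ A] Qbar)) (hPA : ∀ i z, P i z ∈ A)
    (hPK : ∀ i, ∃ K' : IntermediateField ℚ Qbar, FiniteDimensional ℚ K' ∧ K₁ ≤ K' ∧
      UnramAtPlace A K' ∧ ∀ z, P i z ∈ K')
    (hPs : ∀ i j, i ≠ j →
      P i (algebraMap A1 A01 s) - P j (algebraMap A1 A01 s) ∉ A.nonunits) :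
    GeoInputNN l M := by
  letI := algebraOKA K₁ A
  refine geoInputNN_of_two_level_s l hl M K₁ A hA hunr A0 A1 A01 t s H₁ e₁ ι₁ hinj hmem hequiv hFib
    (Set.range fun i => codRestrictA K₁ A (P i) (hPA i)) ?_ ?_
  · rw [← Set.range_comp]
    refine Set.infinite_range_of_injective ?_
    intro i j hij
    by_contra hne
    apply hPs i j hne
    have h0 : IsLocalRing.residue A (codRestrictA K₁ A (P i) (hPA i) (algebraMap A1 A01 s) -
        codRestrictA K₁ A (P j) (hPA j) (algebraMap A1 A01 s)) = 0 := by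
      rw [map_sub, sub_eq_zero]
      exact hij
    rw [IsLocalRing.residue_eq_zero_iff, ← ValuationSubring.coe_mem_nonunits_iff] at h0
    exact h0
  · rintro _ ⟨i, rfl⟩
    obtain ⟨K', hfd, hle, hu, hv⟩ := hPK i
    exact ⟨K', hfd, hle, hu, fun a => hv a⟩

end Fermat.Agent.FFJ.Spec.GeoTwoLevelSeq77
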