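/-
Programme FFJ (S32): **S32-GLUE is closed** (helper72, integrator).

`Status72.S32Glue` (the literal hypothesis of `Status72.s32_of_openContracts`) is helper81's
`FlatOfTorsion81.isFlatAt_of_torsionFlat'` (chapters BLR81, SpanTop81, TateQuot81, TateInst81,
TateLevel81, FlatOfQuot81 of helper81; Sat68, Faith68, GlobalClosure68 of helper68; CHCore90 of
helper90; RedT83 of helper83).  Hence the frozen S32 follows from the single open contract `geo` of
programme FFJ: `s32_of_geo`.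
-/
import Mathlib
import Fermat.Agent.FFJ.Spec.Status72
import Fermat.Agent.FFJ.Glue.FlatOfTorsion81

set_option autoImplicit false

noncomputable section

namespace Fermat.Agent.FFJ.Spec.S32Wire72

open ModularCurve Polynomial
open Fermat.Agent.TW.FF.FlatModel68 Fermat.Agent.FFJ.Level.Level72
open Fermat.Agent.FFJ.Spec.Status72

/-- **S32-GLUE** (helper81). -/
theorem s32Glue : S32Glue := by
  intro p N _ S 𝒪 _ _ _ _ T _ _ _ _ _ _ _ _ _ _ hp hp2 hp𝒪 _hpN hpS hNS π hadj ρ habs hfrob hS19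
  exact Fermat.Agent.FFJ.Glue.FlatOfTorsion81.isFlatAt_of_torsionFlat' hp hp2 hp𝒪 hpS hNS π hadj ρ
    habs hfrob (fun k => ⟨torsAct N ((p : ℤ) ^ k), fun _ _ => rfl, hS19 k⟩)

section S32

variable {p : ℕ} {N : ℕ} [NeZero N] {S : Finset ℕ}
  {𝒪 : Type} [CommRing 𝒪] [IsDomain 𝒪] [IsDiscreteValuationRing 𝒪]
  [IsAdicComplete (IsLocalRing.maximalIdeal 𝒪) 𝒪]
  {θ : CuspForm.heckeAlgebra N 2 (↑S : Set ℕ) →+* IsLocalRing.ResidueField 𝒪}
  {T : Type} [CommRing T] [IsLocalRing T] [IsNoetherianRing T]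
  [IsAdicComplete (IsLocalRing.maximalIdeal T) T] [Algebra 𝒪 T] [IsLocalHom (algebraMap 𝒪 T)]
  [Module.Finite 𝒪 T] [Module.Free 𝒪 T]

/-- **S32 from the open contract `geo` of programme FFJ.**  The conclusion is literally the frozen
S32. -/
theorem s32_of_geo (hO : OpenContracts)
    [Finite (IsLocalRing.ResidueField 𝒪)] [CharZero 𝒪]
    (hp : p.Prime) (hp2 : p ≠ 2) (hp𝒪 : (p : 𝒪) ∈ IsLocalRing.maximalIdeal 𝒪) (hpN : ¬ p ∣ N)
    (hpS : p ∈ S) (hNS : ∀ q : ℕ, q.Prime → q ∣ N → q ∈ S)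
    (H : CuspForm.HeckeGaloisRepDatum N (↑S : Set ℕ) 𝒪 θ T) :
    H.ρ.IsFlatAt p :=
  s32_of_openContracts hO s32Glue hp hp2 hp𝒪 hpN hpS hNS H

end S32

end Fermat.Agent.FFJ.Spec.S32Wire72
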