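/-
Programme FFJ.  **STATUS addendum (helper78): S19 from the WEAKEST form of GEO.**

`Status72.GeoStatement` asks for `SpecLocal78.GeoInputLocal` (a function order at one place `A ∩ K` of a
number field `K` which is NORMAL over `ℚ` and unramified at that place).  Since
`MainNN78.algStatementNN`, chapter ALG no longer needs normality: `GeoStatementNN` asks only for
`SpecNN78.GeoInputNN` (`K` any finite extension of `ℚ`, unramified at the one place `A ∩ K`), and

* (since `Status72` v3 the integrator's `Status72.GeoStatement` IS this statement; this file is kept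
  as an independent twin and only uses `Status72.torsDistribMulAction`);
* `s19_of_geoStatementNN` has literally the conclusion of the frozen S19;
* `flatModel_torsion_of_geoStatementNN` is the `FlatModel` form at every level (what S32-GLUE and ORD
  consume);
* `GeoPackageNN` / `geoInputNN_of_geoPackageNN` : the one-level package of `Status72.GeoPackage` without
  the field `normalK`.
-/
import Mathlib
import Fermat.Agent.FFJ.Spec.Status72
import Fermat.Agent.FFJ.Alg.MainNN78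

set_option autoImplicit false
set_option linter.style.haveILetI false

noncomputable section

namespace Fermat.Agent.FFJ.Spec.StatusNN78

open ModularCurve Polynomial
open Fermat.Agent.TW.FF.FlatModel68 Fermat.Agent.S19.Shell64
open Fermat.Agent.FFJ.Level.Level72 Fermat.Agent.FFJ.Alg
open Fermat.Agent.FFJ.Alg.Spec78 Fermat.Agent.FFJ.Alg.SpecLocal78 Fermat.Agent.FFJ.Alg.SpecNN78
open Fermat.Agent.FFJ.Core.ClR35 Fermat.Agent.FFJ.Core.ClRBc35 Fermat.Agent.FFJ.Spec.Spec35
open Fermat.Agent.FFJ.Order.Order77 Fermat.Agent.FFJ.Order.GeoWire77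
open Fermat.Agent.FFJ.Spec.Status72

/-- **GEO, weakest form**: at every auxiliary level `M` (divisible by `4` or by `9`) and every prime
`ℓ ∤ M`, the Galois module `J₀(M)[ℓ^k]` has a function order at one place `A ∩ K` of a number field
`K` (not necessarily normal) which is unramified at that place. -/
def GeoStatementNN : Prop :=
  ∀ (M : ℕ) [NeZero M] (ℓ : ℕ) [Fact ℓ.Prime], ¬ ℓ ∣ M → (4 ∣ M ∨ 9 ∣ M) → ∀ k : ℕ,
    letI := torsDistribMulAction M ((ℓ : ℤ) ^ k)
    GeoInputNN ℓ ↥(Submodule.torsionBy ℤ (JZero M) ((ℓ : ℤ) ^ k))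

/-- `FlatModel` of `J₀(M)[ℓ^k]` at the auxiliary levels. -/
theorem flatModel_of_geoStatementNN (hG : GeoStatementNN) (M : ℕ) [NeZero M] (ℓ : ℕ)
    [Fact ℓ.Prime] (hℓM : ¬ ℓ ∣ M) (hM : 4 ∣ M ∨ 9 ∣ M) (k : ℕ) :
    FlatModel ℓ ↥(Submodule.torsionBy ℤ (JZero M) ((ℓ : ℤ) ^ k)) (torsAct M ((ℓ : ℤ) ^ k)) := by
  letI := torsDistribMulAction M ((ℓ : ℤ) ^ k)
  exact MainNN78.algStatementNN ℓ ↥(Submodule.torsionBy ℤ (JZero M) ((ℓ : ℤ) ^ k))
    (hG M ℓ hℓM hM k)

/-- **S19 from the weakest form of GEO.**  The conclusion is literally the frozen S19. -/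
theorem s19_of_geoStatementNN (hG : GeoStatementNN)
    (p : ℕ) [NeZero p] (ℓ : ℕ) [Fact ℓ.Prime] (hℓp : ¬ ℓ ∣ p) (k : ℕ) :
    ∃ (H : Type) (_ : CommRing H) (_ : HopfAlgebra (GaloisRep.ratLocalizedAt ℓ) H),
      Module.Finite (GaloisRep.ratLocalizedAt ℓ) H ∧ Module.Flat (GaloisRep.ratLocalizedAt ℓ) H ∧
      Coalgebra.IsCocomm (GaloisRep.ratLocalizedAt ℓ) H ∧
      ∃ e : WithConv (H →ₐ[GaloisRep.ratLocalizedAt ℓ] AlgebraicClosure ℚ) ≃
          ↥(Submodule.torsionBy ℤ (JZero p) ((ℓ : ℤ) ^ k)),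
        (∀ f g, e (f * g) = e f + e g) ∧
        ∀ (σ : AlgebraicClosure ℚ ≃ₐ[ℚ] AlgebraicClosure ℚ)
          (f g : WithConv (H →ₐ[GaloisRep.ratLocalizedAt ℓ] AlgebraicClosure ℚ)),
          (∀ h : H, g h = σ (f h)) → ((e g : JZero p)) = σ • (e f : JZero p) :=
  s19_of_s19_at_auxLevels
    (fun M _ ℓ' _ hℓM k' hM =>
      (flatModel_iff_s19 M ℓ' k').mp (flatModel_of_geoStatementNN hG M ℓ' hℓM hM k'))
    p ℓ hℓp k

/-- The S19 conclusion at every level, in `FlatModel` form. -/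
theorem flatModel_torsion_of_geoStatementNN (hG : GeoStatementNN)
    (N : ℕ) [NeZero N] (ℓ : ℕ) [Fact ℓ.Prime] (hℓN : ¬ ℓ ∣ N) (k : ℕ) :
    FlatModel ℓ ↥(Submodule.torsionBy ℤ (JZero N) ((ℓ : ℤ) ^ k)) (torsAct N ((ℓ : ℤ) ^ k)) :=
  (flatModel_iff_s19 N ℓ k).mpr (s19_of_geoStatementNN hG N ℓ hℓN k)

/-! ### The one-level package without normality -/

/-- `Status72.GeoPackage` without the field `normalK`. -/
structure GeoPackageNN (l : ℕ) (M : Type) [AddCommGroup M] [DistribMulAction GQ M] : Type 1 where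
  finM : Finite M
  K : IntermediateField ℚ Qbar
  finK : FiniteDimensional ℚ K
  A : ValuationSubring Qbar
  hA : A.LiesOverPrime l
  unram : UnramAtPlace A K
  A0 : Type
  A1 : Type
  A01 : Type
  [commRing0 : CommRing A0]
  [commRing1 : CommRing A1]
  [commRing01 : CommRing A01]
  [algebra0 : Algebra (OK K A) A0]
  [algebra1 : Algebra (OK K A) A1]
  [algebra01 : Algebra (OK K A) A01]
  [algebra0_01 : Algebra A0 A01]
  [algebra1_01 : Algebra A1 A01]
  [tower0 : IsScalarTower (OK K A) A0 A01]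
  [tower1 : IsScalarTower (OK K A) A1 A01]
  t : A0
  s : A1
  [away_t : IsLocalization.Away t A01]
  [away_s : IsLocalization.Away s A01]
  e : A01 →ₐ[OK K A] OK K A
  hmul : PicZeroMul (OK K A) A0 A1 A01 t s e
  chart : ChartPkg (OK K A) A0 A1 A01 t s e
  ι : Multiplicative M →* ClR (OK K A) A0 A1 A01 t s Qbar
  ι_injective : Function.Injective ι
  ι_mem : ∀ m, ι m ∈ PicZeroR e Qbar
  ι_equivariant : ∀ (σ : Qbar ≃ₐ[K] Qbar) (m : M),
    ι (Multiplicative.ofAdd ((σ.restrictScalars ℚ : GQ) • m)) =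
      galActR (OK K A) K σ (ι (Multiplicative.ofAdd m))
  valSurj : ValSurj (OK K A) A0 A1 A01 t s e Qbar
  admissible : Admissible Qbar chart (Set.range ι)

/-- a `GeoPackageNN` gives `SpecNN78.GeoInputNN` (`Order77.exists_isFunOrder`). -/
theorem geoInputNN_of_geoPackageNN {l : ℕ} {M : Type} [AddCommGroup M] [DistribMulAction GQ M]
    (P : GeoPackageNN l M) : GeoInputNN l M := by
  haveI := P.finM
  letI := P.commRing0
  letI := P.commRing1
  letI := P.commRing01
  letI := P.algebra0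
  letI := P.algebra1
  letI := P.algebra01
  letI := P.algebra0_01
  letI := P.algebra1_01
  haveI := P.tower0
  haveI := P.tower1
  haveI := P.away_t
  haveI := P.away_s
  letI : MulAction (Qbar ≃ₐ[P.K] Qbar) M := resMulAction P.K M
  obtain ⟨H, hH⟩ := exists_isFunOrder (F := P.K) (OK P.K P.A) P.A0 P.A1 P.A01 P.t P.s P.e P.hmul
    P.chart M P.ι P.ι_injective P.ι_mem P.ι_equivariant P.valSurj P.admissible
  exact ⟨P.K, P.finK, P.A, P.hA, P.unram, H, hH⟩

/-- GEO (weakest form) from one `GeoPackageNN` per `(M, ℓ, k)`. -/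
theorem geoStatementNN_of_geoPackageNN
    (h : ∀ (M : ℕ) [NeZero M] (ℓ : ℕ) [Fact ℓ.Prime], ¬ ℓ ∣ M → (4 ∣ M ∨ 9 ∣ M) → ∀ k : ℕ,
      letI := torsDistribMulAction M ((ℓ : ℤ) ^ k)
      Nonempty (GeoPackageNN ℓ ↥(Submodule.torsionBy ℤ (JZero M) ((ℓ : ℤ) ^ k)))) :
    GeoStatementNN := by
  intro M _ ℓ _ hℓM hM k
  letI := torsDistribMulAction M ((ℓ : ℤ) ^ k)
  obtain ⟨P⟩ := h M ℓ hℓM hM k
  exact geoInputNN_of_geoPackageNN P

end Fermat.Agent.FFJ.Spec.StatusNN78
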