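/-
Programme FFJ (S19), chapter PIC, slice (D8-TOP): the `AK`-form of the two-level step (SUPPLY-SEAM,
split #2105 of helper72).  Owner: helper77.

CURVE, BRIDGE and SUPPLY speak `↥(RED.Interface4.AK A K₁)` (`AK` is a plain `def`), ORDER and
`GeoTwoLevel77` speak `GeoWire77.OK K₁ A` (an `abbrev` for `↥(A.comap (algebraMap K₁ ℚ̄))`).  The two
are definitionally equal, but instance synthesis does not see through `AK` (report #2084 of helper96).
Here the three forms of (D8-TOP) are restated with ALL binders in the `AK` form, so that the outputs of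
`CurveOut17.curveOut`, `TorsionBridge96.exists_bridge_torsion_subalgebra`, `FibR6.fibR` and
`Supply39.supply` plug in without any instance surgery:

* `geoInputNN_of_two_level_seq_AK` : supply = a sequence of `ℚ̄`-valued points with values in `A`
  (literal exit shape of `Supply39.supply`: clauses 3, 4, 5 of its conclusion);
* `geoInputNN_of_two_level_AK`, `geoInputNN_of_two_level_s_AK` : supply = a set of `A`-valued points
  (exit shape of `SupplyCurve64.supply_of_curveHypR`);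
* `algebraAKA` : the `↥(AK A K₁)`-algebra structure of `↥A` (`= GeoWireOne77.algebraOKA K₁ A`).
-/
import Mathlib
import Fermat.Agent.FFJ.Spec.GeoTwoLevelSeq77
import Fermat.Agent.RED.Interface4

set_option autoImplicit false
set_option linter.style.haveILetI false
set_option linter.unusedSectionVars false
set_option maxHeartbeats 400000

noncomputable section

namespace Fermat.Agent.FFJ.Spec.SupplySeam77

open scoped TensorProduct
open Fermat.Agent.JAC.Core.Defs36 Fermat.Agent.JAC.Grp.Diag33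
  Fermat.Agent.FFJ.Core.ClR35 Fermat.Agent.FFJ.Core.ClRBc35
  Fermat.Agent.FFJ.Spec.Spec35 Fermat.Agent.S19.Shell64 Fermat.Agent.FFJ.Alg.Spec78
  Fermat.Agent.FFJ.Alg.SpecLocal78 Fermat.Agent.FFJ.Alg.SpecNN78
  Fermat.Agent.TW.FF.FlatModel68 Fermat.Agent.FFJ.Order.GeoWire77
  Fermat.Agent.FFJ.Order.GeoWireOne77 Fermat.Agent.FFJ.Pic.SpecD35
  Fermat.Agent.FFJ.Spec.GeoTwoLevel77 Fermat.Agent.FFJ.Spec.GeoTwoLevelSeq77
open Fermat.Agent.RED.Interface4 (AK)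

/-- The `↥(AK A K)`-algebra structure of `↥A` (`= GeoWireOne77.algebraOKA K A`). -/
@[reducible] def algebraAKA (K : IntermediateField ℚ Qbar) (A : ValuationSubring Qbar) :
    Algebra ↥(AK A K) ↥A := algebraOKA K A

/-- **(D8-TOP), sequence form, `AK` binders.** -/
theorem geoInputNN_of_two_level_seq_AK (l : ℕ) (hl : l.Prime) (M : Type) [AddCommGroup M]
    [Finite M] [DistribMulAction GQ M]
    (K₁ : IntermediateField ℚ Qbar) [FiniteDimensional ℚ K₁]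
    (A : ValuationSubring Qbar) (hA : A.LiesOverPrime l) (hunr : UnramAtPlace A K₁)
    (A0 A1 A01 : Type) [CommRing A0] [CommRing A1] [CommRing A01]
    [i0 : Algebra ↥(AK A K₁) A0] [i1 : Algebra ↥(AK A K₁) A1] [i01 : Algebra ↥(AK A K₁) A01]
    [j0 : Algebra A0 A01] [j1 : Algebra A1 A01] [h0 : IsScalarTower ↥(AK A K₁) A0 A01]
    [h1 : IsScalarTower ↥(AK A K₁) A1 A01]
    (t : A0) (s : A1) [ht : IsLocalization.Away t A01] [hs : IsLocalization.Away s A01]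
    (H₁ : Fermat.Agent.FFJ.Pic.ChartDefR35.CurveHypR ↥(AK A K₁) A0 A1 A01 t s)
    (e₁ : A01 →ₐ[↥(AK A K₁)] ↥(AK A K₁))
    (ι₁ : Multiplicative M →* ClR ↥(AK A K₁) A0 A1 A01 t s Qbar) (hinj : Function.Injective ι₁)
    (hmem : ∀ m, ι₁ m ∈ PicZeroR e₁ Qbar)
    (hequiv : ∀ (σ : Qbar ≃ₐ[K₁] Qbar) (m : M),
      ι₁ (Multiplicative.ofAdd ((σ.restrictScalars ℚ : GQ) • m)) =
        galActR ↥(AK A K₁) K₁ σ (ι₁ (Multiplicative.ofAdd m)))
    (hFib : FibStatement ↥(AK A K₁) A0 A1 A01 t s H₁.hts)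
    (P : ℕ → (A01 →ₐ[↥(AK A K₁)] Qbar)) (hPA : ∀ i z, P i z ∈ A)
    (hPK : ∀ i, ∃ K' : IntermediateField ℚ Qbar, FiniteDimensional ℚ K' ∧ K₁ ≤ K' ∧
      UnramAtPlace A K' ∧ ∀ z, P i z ∈ K')
    (hPs : ∀ i j, i ≠ j →
      P i (algebraMap A1 A01 s) - P j (algebraMap A1 A01 s) ∉ A.nonunits) :
    GeoInputNN l M :=
  @geoInputNN_of_two_level_seq l hl M _ _ _ K₁ _ A hA hunr A0 A1 A01 _ _ _ i0 i1 i01 j0 j1 h0 h1
    t s ht hs H₁ e₁ ι₁ hinj hmem hequiv hFib P hPA hPK hPs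

/-- **(D8-TOP), `AK` binders**, supply = a set of `A`-valued points, `t`-coordinate. -/
theorem geoInputNN_of_two_level_AK (l : ℕ) (hl : l.Prime) (M : Type) [AddCommGroup M]
    [Finite M] [DistribMulAction GQ M]
    (K₁ : IntermediateField ℚ Qbar) [FiniteDimensional ℚ K₁]
    (A : ValuationSubring Qbar) (hA : A.LiesOverPrime l) (hunr : UnramAtPlace A K₁)
    (A0 A1 A01 : Type) [CommRing A0] [CommRing A1] [CommRing A01]
    [i0 : Algebra ↥(AK A K₁) A0] [i1 : Algebra ↥(AK A K₁) A1] [i01 : Algebra ↥(AK A K₁) A01]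
    [j0 : Algebra A0 A01] [j1 : Algebra A1 A01] [h0 : IsScalarTower ↥(AK A K₁) A0 A01]
    [h1 : IsScalarTower ↥(AK A K₁) A1 A01]
    (t : A0) (s : A1) [ht : IsLocalization.Away t A01] [hs : IsLocalization.Away s A01]
    (H₁ : Fermat.Agent.FFJ.Pic.ChartDefR35.CurveHypR ↥(AK A K₁) A0 A1 A01 t s)
    (e₁ : A01 →ₐ[↥(AK A K₁)] ↥(AK A K₁))
    (ι₁ : Multiplicative M →* ClR ↥(AK A K₁) A0 A1 A01 t s Qbar) (hinj : Function.Injective ι₁)
    (hmem : ∀ m, ι₁ m ∈ PicZeroR e₁ Qbar)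
    (hequiv : ∀ (σ : Qbar ≃ₐ[K₁] Qbar) (m : M),
      ι₁ (Multiplicative.ofAdd ((σ.restrictScalars ℚ : GQ) • m)) =
        galActR ↥(AK A K₁) K₁ σ (ι₁ (Multiplicative.ofAdd m)))
    (hFib : FibStatement ↥(AK A K₁) A0 A1 A01 t s H₁.hts)
    (S : letI := algebraAKA K₁ A; Set (A01 →ₐ[↥(AK A K₁)] ↥A))
    (hSinf : letI := algebraAKA K₁ A
      ((fun P : A01 →ₐ[↥(AK A K₁)] ↥A =>
        IsLocalRing.residue ↥A (P (algebraMap A0 A01 t))) '' S).Infinite)
    (hSunr : letI := algebraAKA K₁ A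
      ∀ P ∈ S, ∃ K' : IntermediateField ℚ Qbar, FiniteDimensional ℚ K' ∧ K₁ ≤ K' ∧
        UnramAtPlace A K' ∧ ∀ a, ((P a : ↥A) : Qbar) ∈ K') :
    GeoInputNN l M :=
  @geoInputNN_of_two_level l hl M _ _ _ K₁ _ A hA hunr A0 A1 A01 _ _ _ i0 i1 i01 j0 j1 h0 h1
    t s ht hs H₁ e₁ ι₁ hinj hmem hequiv hFib S hSinf hSunr

/-- **(D8-TOP), `AK` binders**, supply = a set of `A`-valued points, `s`-coordinate. -/
theorem geoInputNN_of_two_level_s_AK (l : ℕ) (hl : l.Prime) (M : Type) [AddCommGroup M]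
    [Finite M] [DistribMulAction GQ M]
    (K₁ : IntermediateField ℚ Qbar) [FiniteDimensional ℚ K₁]
    (A : ValuationSubring Qbar) (hA : A.LiesOverPrime l) (hunr : UnramAtPlace A K₁)
    (A0 A1 A01 : Type) [CommRing A0] [CommRing A1] [CommRing A01]
    [i0 : Algebra ↥(AK A K₁) A0] [i1 : Algebra ↥(AK A K₁) A1] [i01 : Algebra ↥(AK A K₁) A01]
    [j0 : Algebra A0 A01] [j1 : Algebra A1 A01] [h0 : IsScalarTower ↥(AK A K₁) A0 A01]
    [h1 : IsScalarTower ↥(AK A K₁) A1 A01]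
    (t : A0) (s : A1) [ht : IsLocalization.Away t A01] [hs : IsLocalization.Away s A01]
    (H₁ : Fermat.Agent.FFJ.Pic.ChartDefR35.CurveHypR ↥(AK A K₁) A0 A1 A01 t s)
    (e₁ : A01 →ₐ[↥(AK A K₁)] ↥(AK A K₁))
    (ι₁ : Multiplicative M →* ClR ↥(AK A K₁) A0 A1 A01 t s Qbar) (hinj : Function.Injective ι₁)
    (hmem : ∀ m, ι₁ m ∈ PicZeroR e₁ Qbar)
    (hequiv : ∀ (σ : Qbar ≃ₐ[K₁] Qbar) (m : M),
      ι₁ (Multiplicative.ofAdd ((σ.restrictScalars ℚ : GQ) • m)) =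
        galActR ↥(AK A K₁) K₁ σ (ι₁ (Multiplicative.ofAdd m)))
    (hFib : FibStatement ↥(AK A K₁) A0 A1 A01 t s H₁.hts)
    (S : letI := algebraAKA K₁ A; Set (A01 →ₐ[↥(AK A K₁)] ↥A))
    (hSinf : letI := algebraAKA K₁ A
      ((fun P : A01 →ₐ[↥(AK A K₁)] ↥A =>
        IsLocalRing.residue ↥A (P (algebraMap A1 A01 s))) '' S).Infinite)
    (hSunr : letI := algebraAKA K₁ A
      ∀ P ∈ S, ∃ K' : IntermediateField ℚ Qbar, FiniteDimensional ℚ K' ∧ K₁ ≤ K' ∧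
        UnramAtPlace A K' ∧ ∀ a, ((P a : ↥A) : Qbar) ∈ K') :
    GeoInputNN l M :=
  @geoInputNN_of_two_level_s l hl M _ _ _ K₁ _ A hA hunr A0 A1 A01 _ _ _ i0 i1 i01 j0 j1 h0 h1
    t s ht hs H₁ e₁ ι₁ hinj hmem hequiv hFib S hSinf hSunr

end Fermat.Agent.FFJ.Spec.SupplySeam77
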